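/-
PROJECT R (S43), block T1, helper1: **the SQUARED Frobenius relation on the toric part, in the
vocabulary of classes** (no hypothesis left: it is `S35/FrobZOfGeneric` + `S34/CoreZX0` on main).

The toric part at level `n` of `J₀(M q)` at a place `A ∣ q` is main's
`S33/KP/OneUnit.oneUnit hA hqM n` (classes `[D]` with `n D = div u`, `u` a one-unit of both Gauss
rings `V1X0`, `V2X0`).

* `smul_mk_eq_nsmul_of_kummer` (abstract): if `n D = div u` and `g u = c * h ^ n * u ^ Q` then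
  `g [D] = Q [D]`;
* `frobSq_smul_of_mem_oneUnit` : for a Frobenius lift `σ` at `q` (`q ∤ M`), a prime `p ≠ q` and
  `y ∈ oneUnit hA hqM (p ^ k)` : `σ • σ • y = q ^ 2 • y`.
-/
import Fermat.Agent.S33.KP.OneUnit
import Fermat.Agent.S34.CoreZX0
import Fermat.Agent.S35.FrobZOfGeneric

set_option autoImplicit false
set_option linter.unusedSectionVars false
set_option linter.style.haveILetI false

noncomputable section

namespace Fermat.Agent.S43.T1.FrobSq

open ModularCurve AlgebraicCurve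
open Fermat.Agent.S34.KummerZ

section Abstract

variable {K F : Type*} [Field K] [Field F] [Algebra K F]

/-- **Kummer glue, one layer.**  If `n D = div u` and `g u = c * h ^ n * u ^ Q`, then
`g [D] = Q [D]` in `Pic⁰`. -/
theorem smul_mk_eq_nsmul_of_kummer [HasPrincipalDivisors K F] (g : SemilinearAut K F) (n : ℕ)
    (hn : n ≠ 0) (Q : ℕ) (D : Divisor.degZero (K := K) (F := F)) {u : F} (hu : u ≠ 0)
    (hD : ∀ w : Place K F, w.ord u = (n : ℤ) * (D : Divisor K F) w)
    {c : K} {h : F} (hc : c ≠ 0) (hh : h ≠ 0)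
    (h2 : g • u = algebraMap K F c * h ^ n * u ^ Q) :
    g • Pic0.mk D = Q • Pic0.mk D := by
  have hn' : (n : ℤ) ≠ 0 := Int.natCast_ne_zero.mpr hn
  obtain ⟨Eh, hEh, hEhdeg⟩ := HasPrincipalDivisors.exists_divisor (K := K) h hh
  let Dh : Divisor.degZero (K := K) (F := F) := ⟨Eh, Divisor.mem_degZero.mpr hEhdeg⟩
  have hDh : Pic0.mk Dh = 0 := mk_eq_zero_of_isDivOf hh (fun w => hEh w)
  have hgD : SemilinearAut.degZeroSMulHom g D = Dh + Q • D := by
    apply Subtype.ext
    apply Finsupp.ext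
    intro w
    have e1 : w.ord (g • u) = (n : ℤ) * ((SemilinearAut.degZeroSMulHom g D :
        Divisor.degZero (K := K) (F := F)) : Divisor K F) w := by
      rw [ord_smul_eq, hD, SemilinearAut.coe_degZeroSMulHom, SemilinearAut.divisor_smul_apply]
    have hcF : algebraMap K F c ≠ 0 := (_root_.map_ne_zero (algebraMap K F)).mpr hc
    have hhn : h ^ n ≠ 0 := pow_ne_zero n hh
    have huQ : u ^ Q ≠ 0 := pow_ne_zero Q hu
    rw [h2, w.ord_mul (mul_ne_zero hcF hhn) huQ, w.ord_mul hcF hhn,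
      Fermat.Agent.S34.KummerZ.ord_algebraMap w hc, Fermat.Agent.S34.KummerZ.ord_pow,
      Fermat.Agent.S34.KummerZ.ord_pow, hD w, ← hEh w] at e1
    have e2 : ((Dh + Q • D : Divisor.degZero (K := K) (F := F)) : Divisor K F) w
        = Eh w + (Q : ℤ) * (D : Divisor K F) w := by
      rw [AddSubgroup.coe_add, AddSubgroup.coe_nsmul, Finsupp.add_apply, Finsupp.smul_apply,
        nsmul_eq_mul]
    rw [e2]
    have e3 : (n : ℤ) * ((SemilinearAut.degZeroSMulHom g D :
        Divisor.degZero (K := K) (F := F)) : Divisor K F) w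
        = (n : ℤ) * (Eh w + (Q : ℤ) * (D : Divisor K F) w) := by
      linarith
    exact mul_left_cancel₀ hn' e3
  rw [SemilinearAut.pic0_smul_mk, hgD]
  have : Pic0.mk (Dh + Q • D) = Pic0.mk Dh + Q • Pic0.mk D := rfl
  rw [this, hDh, zero_add]

end Abstract

section X0

open Fermat.Agent.S34.Z1X0 Fermat.Agent.S34.Z1Abstract
open Fermat.Agent.S33.KP.OneUnit Fermat.Agent.S35.FrobZOfPrincipal

local notation "Kb" => AlgebraicClosure ℚ

variable {q : ℕ} [hq : Fact q.Prime] {M : ℕ} [NeZero M] {A : ValuationSubring Kb} [NeZero q]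

/-- **`Frob_q² = q²` on the toric part**, from `FrobZHyp`. -/
theorem frobSq_smul_of_frobZHyp {p : ℕ} (hp : p ≠ 0) (H : FrobZHyp M q p)
    (hA : A.LiesOverPrime q) (hqM : ¬ q ∣ M) {σ : Kb ≃ₐ[ℚ] Kb} (hσ : A.IsFrobeniusAt σ q)
    (k : ℕ) {y : JZero (M * q)} (hy : y ∈ oneUnit hA hqM (p ^ k)) :
    σ • σ • y = (q ^ 2) • y := by
  haveI := Fermat.Agent.S18.A.Instances.hasPrincipalDivisors_bar (M * q)
  obtain ⟨D, u, rfl, hu, h1, h2, hD⟩ := exists_strict_of_mem_oneUnit hA hqM hy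
  have hHn : Hn (K := Kb) (p ^ k) u := ⟨hu, fun w => ⟨_, hD w⟩⟩
  obtain ⟨c, h, hc, hh, he⟩ := H A hA hqM σ hσ k u hHn h1 h2
  have he' : (arithmeticGalois (modularFunctionFieldFull (M * q)) σ *
      arithmeticGalois (modularFunctionFieldFull (M * q)) σ) • u
      = algebraMap Kb ↥(modularFunctionFieldBar (M * q)) c * h ^ (p ^ k) * u ^ (q ^ 2) := by
    rw [mul_smul]; exact he
  have key := smul_mk_eq_nsmul_of_kummer _ (p ^ k) (pow_ne_zero k hp) (q ^ 2) D hu
    hD hc hh he'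
  rw [galois_smul_pic0_def, galois_smul_pic0_def, ← mul_smul]
  exact key

/-- **`Frob_q² = q²` on the toric part** (no hypothesis: `S35/FrobZOfGeneric` at
`S34/CoreZX0.genericX0_all`). -/
theorem frobSq_smul_of_mem_oneUnit {p : ℕ} (hp : p.Prime) (hpq : p ≠ q)
    (hA : A.LiesOverPrime q) (hqM : ¬ q ∣ M) {σ : Kb ≃ₐ[ℚ] Kb} (hσ : A.IsFrobeniusAt σ q)
    (k : ℕ) {y : JZero (M * q)} (hy : y ∈ oneUnit hA hqM (p ^ k)) :
    σ • σ • y = (q ^ 2) • y :=
  frobSq_smul_of_frobZHyp hp.ne_zero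
    (Fermat.Agent.S35.FrobZOfGeneric.frobZHyp_of_generic hp hpq
      (Fermat.Agent.S34.CoreZX0.genericX0_all M q)) hA hqM hσ k hy

end X0

end Fermat.Agent.S43.T1.FrobSq
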