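/-
PROJECT R (S43), block T1, helper1: **THE NAMED HYPOTHESES THE TWO CONSUMERS ARE TYPED AGAINST**
(defs only; vocabulary = main's `S33/KP/OneUnit.oneUnit` (the toric part at level `n` of `J₀(M q)`
at a place `A ∣ q`), `S35/DegeneracyHecke.alphaPush / betaPush`, `heckeOperatorBar`,
`A.inertiaSubgroupIn ℚ`, `A.IsFrobeniusAt`).

* `ToricOfNewFixed M q p` = **(X)**: there is `c ≠ 0` such that for every `k` and every
  `y ∈ J₀(M q)[p ^ k]` killed by `α_*`, `β_*` and fixed by the inertia group of `A ∣ q`,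
  `c • y` is toric of level `p ^ k` (`c` does not depend on `k`; it may depend on `A`).
  CONSUMER 2 (characteristic `0`: exit N6 / NEWRAM) uses (X) + the SQUARED relation
  `T1/FrobSq.frobSq_smul_of_mem_oneUnit` (no hypothesis) only.
* `MazurDich M q p` = **(MD)**: MAZUR'S DICHOTOMY MODULO `p` at `q ‖ M q`: an eigenclass
  `y ∈ J₀(M q)[p]` of the `T_r`, `r ∈ good`, fixed by inertia at `A ∣ q`, non-Eisenstein
  (`a_r ≢ r + 1 mod p` for one `r ∈ good`), EITHER gives a Tate vector of level `M` with the same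
  eigenvalues (EXIT to level `M`: one of the two reductions of `y` to `J₀(M)(𝔽̄_q)[p] ≅ J₀(M)[p]`
  is non-zero) OR is toric of level `p`.  (Twin at `q ≠ p` of main's S44 chain
  `Top/Block4.tameExport_of_block4` + `Top/Assemble.exists_tate_eigenvector_of_ne_zero` +
  `mem_oneUnit_of_rho_eq_zero_of_redStd`.)  NOTE: (X) in its `c • y` form is NOT enough modulo `p`
  (`p ∣ c` is the typical case: `c` kills `J₀(M)(𝔽_{q²})[p^∞]`), CONSUMER 1 needs (MD).
* `FrobU M q p` = **(FU)**, UNSQUARED: an involution `U` of `J₀(M q)` commuting with `G_ℚ`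
  (`U = - w_q`) with `Frob_q = q U` on the toric part of every level `p ^ k` (every `A ∣ q`, every
  Frobenius lift at `A`).
* `BadAt` : an integral model of the Frey curve has bad reduction at every odd prime of `abc`
  (needed by every step `N → N / ℓ`, `ℓ ≠ p`: the Prelude's `ModularRepOfLevel (N / ℓ)` asks the
  congruence at `ℓ` itself if `ℓ` were good for `W`).
-/
import Fermat.Agent.S33.KP.OneUnit
import Fermat.Agent.S35.DegeneracyHecke
import Fermat.Agent.S30.Padic.TateModule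
import Fermat.Prelude.Def_FLTPrelim_FreyPackage
import Fermat.Prelude.Def_FLTPrelim_Modularity

set_option autoImplicit false
set_option linter.unusedSectionVars false

noncomputable section

namespace Fermat.Agent.S43.T1.Hyp

open ModularCurve AlgebraicCurve
open Fermat.Agent.S33.KP.OneUnit Fermat.Agent.S35.DegeneracyHecke
open Fermat.Agent.S30.Padic.TateModule

local notation "Kb" => AlgebraicClosure ℚ
local notation "GQ" => (AlgebraicClosure ℚ ≃ₐ[ℚ] AlgebraicClosure ℚ)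

/-- **(X)**: new + fixed by inertia at `q` ⟹ toric up to a constant `c` independent of `k`. -/
def ToricOfNewFixed (M q p : ℕ) [NeZero M] [Fact q.Prime] [NeZero q] [NeZero (M * q)] : Prop :=
  ∀ (A : ValuationSubring Kb) (hA : A.LiesOverPrime q) (hqM : ¬ q ∣ M),
    ∃ c : ℕ, c ≠ 0 ∧ ∀ (k : ℕ) (y : JZero (M * q)), p ^ k • y = 0 →
      alphaPush M q y = 0 → betaPush M q y = 0 →
      (∀ τ ∈ A.inertiaSubgroupIn ℚ, τ • y = y) → c • y ∈ oneUnit hA hqM (p ^ k)

/-- **(MD)**: Mazur's dichotomy modulo `p` at `q ‖ M q`. -/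
def MazurDich (M q p : ℕ) [NeZero M] [Fact q.Prime] [NeZero q] [NeZero (M * q)]
    [Fact p.Prime] : Prop :=
  ∀ (A : ValuationSubring Kb) (hA : A.LiesOverPrime q) (hqM : ¬ q ∣ M)
    (good : Set ℕ), (∀ r ∈ good, ¬ r ∣ M ∧ r ≠ q ∧ r ≠ p) → ∀ a : ℕ → ℤ,
    (∃ r ∈ good, r.Prime ∧ ¬ (p : ℤ) ∣ a r - ((r : ℤ) + 1)) →
    ∀ y : JZero (M * q), p • y = 0 → (∀ τ ∈ A.inertiaSubgroupIn ℚ, τ • y = y) →
    (∀ (r : ℕ) (hr : r.Prime), r ∈ good → heckeOperatorBar (M * q) ⟨r, hr⟩ y = a r • y) →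
    (∃ w : Tp p (JZero M), w.1 1 ≠ 0 ∧ ∀ (r : ℕ) (hr : r.Prime), r ∈ good →
      heckeOperatorBar M ⟨r, hr⟩ (w.1 1) = a r • w.1 1) ∨ y ∈ oneUnit hA hqM p

/-- **(FU)**, unsquared: `Frob_q = q U` on the toric part, `U` an involution commuting with
`G_ℚ`. -/
def FrobU (M q p : ℕ) [NeZero M] [Fact q.Prime] [NeZero q] [NeZero (M * q)] : Prop :=
  ∃ U : JZero (M * q) →+ JZero (M * q), (∀ y, U (U y) = y) ∧
    (∀ (τ : GQ) (y : JZero (M * q)), U (τ • y) = τ • U y) ∧
    ∀ (A : ValuationSubring Kb) (hA : A.LiesOverPrime q) (hqM : ¬ q ∣ M) (σ : GQ),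
      A.IsFrobeniusAt σ q → ∀ (k : ℕ) (y : JZero (M * q)), y ∈ oneUnit hA hqM (p ^ k) →
        σ • y = q • U y

/-- an integral model of the Frey curve is bad at every odd prime of `abc` -/
def BadAt : Prop :=
  ∀ (P : FreyPackage) (W : WeierstrassCurve ℤ), W.IsIntegralModelOf P.freyCurve →
    ∀ ℓ : ℕ, ℓ.Prime → ℓ ≠ 2 → (ℓ : ℤ) ∣ P.a * P.b * P.c → ¬ W.IsGoodPrimeFor ℓ

end Fermat.Agent.S43.T1.Hyp
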