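/-
PROJECT R (S43), block T1, helper1: **THE TRANSFER FOR A FAMILY OF MAPS** (pure algebra; the
brick "TRANSFER" of consumer 2).

`S35/Chain.opVHom_apply_eq_zero_of_ker` transfers a relation from the `p`-power torsion of the
kernel of ONE homomorphism `φ : J → J'` to the kernel of `R ⊗ Tp φ` (flatness of `R`).  For the
inertia-fixed part one needs a FAMILY of maps (`τ - 1`, `τ` in the inertia group).  For `R`
torsion-free over `ℤ_p`:

* `exists_repr_basis` : every `v ∈ R ⊗ T` is `∑ₖ eₖ ⊗ yₖ` with `(eₖ)` a basis of a finitely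
  generated (hence free) `ℤ_p`-submodule `N ≤ R`;
* `eq_zero_of_sum_basis_tmul_eq_zero` : `∑ₖ eₖ ⊗ zₖ = 0` in `R ⊗ T'`, `T'` flat ⟹ all `zₖ = 0`;
* `opVHom_apply_eq_zero_of_family` : if the additive endomorphism `f` of `J` kills every
  `p`-power-torsion `y` with `g i y = 0` for all `i`, then `opVHom f` kills every `v ∈ R ⊗ Tp J`
  with `(R ⊗ Tp (g i)) v = 0` for all `i`;
* `opVHom_apply_eq_zero_of_ker_of_fixed` : the form used by consumer 2 (`φ` and a family of
  endomorphisms).
-/
import Fermat.Agent.S35.Chain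

set_option autoImplicit false
set_option linter.unusedSectionVars false

noncomputable section

namespace Fermat.Agent.S43.T1.Transfer

open TensorProduct
open Fermat.Agent.S30.Padic.TateModule Fermat.Agent.S30.Padic.Assembly

variable (p : ℕ) [hp : Fact p.Prime]
variable (R : Type*) [CommRing R] [Algebra ℤ_[p] R] [Module.IsTorsionFree ℤ_[p] R]

/-- Every element of `R ⊗ T` is `∑ₖ eₖ ⊗ yₖ` with `(eₖ)` a basis of a submodule of `R`. -/
theorem exists_repr_basis {T : Type*} [AddCommGroup T] [Module ℤ_[p] T]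
    (v : R ⊗[ℤ_[p]] T) :
    ∃ (N : Submodule ℤ_[p] R) (n : ℕ) (b : Module.Basis (Fin n) ℤ_[p] N) (y : Fin n → T),
      v = ∑ k, ((b k : N) : R) ⊗ₜ[ℤ_[p]] y k := by
  classical
  -- `v` comes from `N ⊗ T` for a finitely generated `N`
  obtain ⟨N, hN, v', hv'⟩ : ∃ N : Submodule ℤ_[p] R, N.FG ∧ ∃ v' : N ⊗[ℤ_[p]] T,
      v = N.subtype.rTensor T v' := by
    induction v using TensorProduct.induction_on with
    | zero => exact ⟨⊥, Submodule.fg_bot, 0, by rw [map_zero]⟩
    | tmul r x =>
      refine ⟨Submodule.span ℤ_[p] {r}, Submodule.fg_span_singleton r,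
        ⟨r, Submodule.mem_span_singleton_self r⟩ ⊗ₜ x, ?_⟩
      rw [LinearMap.rTensor_tmul]
      rfl
    | add v w hv hw =>
      obtain ⟨N₁, hN₁, v₁, rfl⟩ := hv
      obtain ⟨N₂, hN₂, v₂, rfl⟩ := hw
      refine ⟨N₁ ⊔ N₂, hN₁.sup hN₂,
        (Submodule.inclusion le_sup_left).rTensor T v₁ +
          (Submodule.inclusion le_sup_right).rTensor T v₂, ?_⟩
      rw [map_add, ← LinearMap.comp_apply, ← LinearMap.comp_apply, ← LinearMap.rTensor_comp,
        ← LinearMap.rTensor_comp, Submodule.subtype_comp_inclusion,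
        Submodule.subtype_comp_inclusion]
  haveI : Module.Finite ℤ_[p] N := Module.Finite.iff_fg.mpr hN
  haveI : Module.Free ℤ_[p] N := Module.free_of_finite_type_torsion_free'
  let b := Module.finBasis ℤ_[p] N
  obtain ⟨c, hc⟩ := TensorProduct.eq_repr_basis_left (N := T) b v'
  refine ⟨N, _, b, fun k => c k, ?_⟩
  rw [hv', ← hc, Finsupp.sum_fintype _ _ (fun i => by rw [tmul_zero]), map_sum]
  refine Finset.sum_congr rfl fun k _ => ?_
  rw [LinearMap.rTensor_tmul]
  rfl

omit [Module.IsTorsionFree ℤ_[p] R] in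
/-- `∑ₖ eₖ ⊗ zₖ = 0` in `R ⊗ T'` with `(eₖ)` a basis of a submodule of `R` and `T'` flat: all
`zₖ = 0`. -/
theorem eq_zero_of_sum_basis_tmul_eq_zero {T' : Type*} [AddCommGroup T'] [Module ℤ_[p] T']
    [Module.Flat ℤ_[p] T'] (N : Submodule ℤ_[p] R) {n : ℕ} (b : Module.Basis (Fin n) ℤ_[p] N)
    (z : Fin n → T') (h : ∑ k, ((b k : N) : R) ⊗ₜ[ℤ_[p]] z k = 0) : ∀ k, z k = 0 := by
  classical
  have hinj : Function.Injective (N.subtype.rTensor T') :=
    Module.Flat.rTensor_preserves_injective_linearMap _ N.injective_subtype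
  have h0 : ∑ k, (b k : N) ⊗ₜ[ℤ_[p]] z k = 0 := by
    apply hinj
    rw [map_sum, map_zero, ← h]
    exact Finset.sum_congr rfl fun k _ => LinearMap.rTensor_tmul _ _ _ _
  have h1 := TensorProduct.sum_tmul_basis_left_eq_zero (N := T') b
    (Finsupp.equivFunOnFinite.symm z) (by
      rw [Finsupp.sum_fintype _ _ (fun i => by rw [tmul_zero])]
      exact h0)
  intro k
  have := DFunLike.congr_fun h1 k
  simpa using this

universe u

variable {J : Type u} [AddCommGroup J]

/-- **TRANSFER for a family.**  If `f` kills every `p`-power-torsion `y` with `g i y = 0` for all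
`i`, then `opVHom f` kills every `v ∈ R ⊗ Tp J` with `(R ⊗ Tp (g i)) v = 0` for all `i`. -/
theorem opVHom_apply_eq_zero_of_family {ι : Type*} {J' : ι → Type*} [∀ i, AddCommGroup (J' i)]
    (g : ∀ i, J →+ J' i) (f : AddMonoid.End J)
    (hf : ∀ y : J, (∃ n : ℕ, p ^ n • y = 0) → (∀ i, g i y = 0) → f y = 0)
    (v : R ⊗[ℤ_[p]] Tp p J) (hv : ∀ i, (Tp.map (p := p) (g i)).baseChange R v = 0) :
    opVHom p R J f v = 0 := by
  obtain ⟨N, n, b, y, rfl⟩ := exists_repr_basis p R v
  have hy : ∀ i k, Tp.map (p := p) (g i) (y k) = 0 := by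
    intro i
    refine eq_zero_of_sum_basis_tmul_eq_zero p R N b (fun k => Tp.map (p := p) (g i) (y k)) ?_
    have := hv i
    rw [map_sum] at this
    rw [← this]
    exact Finset.sum_congr rfl fun k _ => (LinearMap.baseChange_tmul _ _ _).symm
  have hfy : ∀ k, Tp.mapEnd (p := p) f (y k) = 0 := by
    intro k
    apply Tp.ext
    intro m
    rw [Tp.coe_mapEnd_apply, Tp.coe_zero_apply]
    refine hf _ (Tp.isTorsion_apply (y k) m) fun i => ?_
    have := congrArg (fun z : Tp p (J' i) => z.1 m) (hy i k)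
    simpa using this
  rw [map_sum]
  refine Finset.sum_eq_zero fun k _ => ?_
  rw [opVHom_tmul, hfy k, tmul_zero]

/-- **TRANSFER, the form of consumer 2**: one homomorphism `φ` and a family of endomorphisms. -/
theorem opVHom_apply_eq_zero_of_ker_of_fixed {J' : Type*} [AddCommGroup J'] (φ : J →+ J')
    {ι : Type*} (h : ι → AddMonoid.End J) (f : AddMonoid.End J)
    (hf : ∀ y : J, (∃ n : ℕ, p ^ n • y = 0) → φ y = 0 → (∀ i, h i y = 0) → f y = 0)
    (v : R ⊗[ℤ_[p]] Tp p J) (hv : (Tp.map (p := p) φ).baseChange R v = 0)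
    (hv' : ∀ i, opVHom p R J (h i) v = 0) : opVHom p R J f v = 0 := by
  refine opVHom_apply_eq_zero_of_family p R (ι := Option ι) (J' := fun _ => J' × J)
    (fun o => o.elim ((AddMonoidHom.inl J' J).comp φ) fun i => (AddMonoidHom.inr J' J).comp (h i))
    f ?_ v ?_
  · intro y hy hg
    refine hf y hy ?_ fun i => ?_
    · exact (Prod.ext_iff.mp (hg none)).1
    · exact (Prod.ext_iff.mp (hg (some i))).2
  · intro o
    cases o with
    | none =>
      change (Tp.map (p := p) ((AddMonoidHom.inl J' J).comp φ)).baseChange R v = 0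
      rw [Tp.map_comp, LinearMap.baseChange_comp, LinearMap.comp_apply, hv, map_zero]
    | some i =>
      change (Tp.map (p := p) ((AddMonoidHom.inr J' J).comp (h i))).baseChange R v = 0
      rw [Tp.map_comp, LinearMap.baseChange_comp, LinearMap.comp_apply]
      have : (Tp.map (p := p) (h i : J →+ J)).baseChange R v = 0 := hv' i
      rw [this, map_zero]

end Fermat.Agent.S43.T1.Transfer
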