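/-
PROJECT R (S43), block T1, helper1: **THE CORE OF CONSUMER 2 (exit N6 / NEWRAM) ON `R ⊗ Tp J₀(M q)`**,
from (X) = `T1/Hyp.ToricOfNewFixed` ALONE (the Frobenius input is the SQUARED relation
`T1/FrobSq.frobSq_smul_of_mem_oneUnit`, a theorem of main's stock).

* `smul_frobSq_eq_of_new_of_fixed` : there is `c ≠ 0` such that, for every Frobenius lift `σ` at
  `A ∣ q`, every torsion-free `ℤ_p`-algebra `R` and every `v ∈ R ⊗ Tp J₀(M q)` which is NEW
  (`(R ⊗ Tp (α_*, β_*)) v = 0`) and FIXED BY THE INERTIA GROUP of `A`: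
  `c • σ (σ v) = c • q² • v`;
* `exists_not_new_of_det` : **a Galois-stable lattice `Λ ≤ R ⊗ Tp J₀(M q)` of rank `2` (`R` a domain
  of characteristic `0`) on which inertia at `A ∣ q` acts trivially and a Frobenius lift `σ` at `A`
  has determinant `q` is NOT NEW**: some `v ∈ Λ` has `(R ⊗ Tp (α_*, β_*)) v ≠ 0`.
  (If `Λ` were new, `σ² = q²` on `Λ`, so `det² = q⁴ ≠ q²`.)
-/
import Fermat.Agent.S43.T1.Hyp
import Fermat.Agent.S43.T1.FrobSq
import Fermat.Agent.S43.T1.Transfer
import Fermat.Agent.S35.DegeneracyGalois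

set_option autoImplicit false
set_option linter.unusedSectionVars false
set_option linter.style.haveILetI false

noncomputable section

namespace Fermat.Agent.S43.T1.NewSq

open TensorProduct ModularCurve AlgebraicCurve
open Fermat.Agent.S30.Padic.TateModule Fermat.Agent.S30.Padic.Assembly
open Fermat.Agent.S33.KP.OneUnit Fermat.Agent.S35.DegeneracyHecke
open Fermat.Agent.S35.DegeneracyGalois (degPair degPair_eq_zero_iff)
open Fermat.Agent.S43.T1.Hyp

local notation "Kb" => AlgebraicClosure ℚ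
local notation "GQ" => (AlgebraicClosure ℚ ≃ₐ[ℚ] AlgebraicClosure ℚ)

variable {q : ℕ} [hq : Fact q.Prime] {M : ℕ} [NeZero M] [NeZero q] [NeZero (M * q)]
variable {p : ℕ} [hp : Fact p.Prime]

/-- **(X) + the squared Frobenius relation, on `R ⊗ Tp`.** -/
theorem smul_frobSq_eq_of_new_of_fixed (hpq : p ≠ q) (hX : ToricOfNewFixed M q p)
    {A : ValuationSubring Kb} (hA : A.LiesOverPrime q) (hqM : ¬ q ∣ M) :
    ∃ c : ℕ, c ≠ 0 ∧ ∀ σ : GQ, A.IsFrobeniusAt σ q →
      ∀ (R : Type*) [CommRing R] [Algebra ℤ_[p] R] [Module.IsTorsionFree ℤ_[p] R]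
        (v : R ⊗[ℤ_[p]] Tp p (JZero (M * q))),
        (Tp.map (p := p) (degPair M q)).baseChange R v = 0 →
        (∀ τ ∈ A.inertiaSubgroupIn ℚ, rhoV p R (JZero (M * q)) τ v = v) →
        (c : R) • rhoV p R (JZero (M * q)) σ (rhoV p R (JZero (M * q)) σ v)
          = (c : R) • ((q ^ 2 : ℕ) : R) • v := by
  obtain ⟨c, hc, hXc⟩ := hX A hA hqM
  refine ⟨c, hc, fun σ hσ R _ _ _ v hnew hfix => ?_⟩
  set S : AddMonoid.End (JZero (M * q)) := DistribMulAction.toAddMonoidEnd GQ (JZero (M * q)) σ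
    with hS
  set f : AddMonoid.End (JZero (M * q)) :=
    (c : AddMonoid.End (JZero (M * q))) * (S * S - ((q ^ 2 : ℕ) : AddMonoid.End (JZero (M * q))))
    with hf
  have hfy : ∀ y : JZero (M * q), f y = c • (σ • σ • y - (q ^ 2) • y) := fun y => by
    rw [hf, AddMonoid.End.coe_mul, Function.comp_apply, AddMonoid.End.natCast_apply]
    congr 1
  have key : opVHom p R (JZero (M * q)) f v = 0 := by
    refine Fermat.Agent.S43.T1.Transfer.opVHom_apply_eq_zero_of_ker_of_fixed p R (degPair M q)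
      (ι := {τ : GQ // τ ∈ A.inertiaSubgroupIn ℚ})
      (fun τ => DistribMulAction.toAddMonoidEnd GQ (JZero (M * q)) τ.1 - 1) f ?_ v hnew ?_
    · intro y hy hφ hτ
      obtain ⟨n, hn⟩ := hy
      obtain ⟨ha, hb⟩ := (degPair_eq_zero_iff y).mp hφ
      have hfixy : ∀ τ ∈ A.inertiaSubgroupIn ℚ, τ • y = y := fun τ hτm => by
        have := hτ ⟨τ, hτm⟩
        exact sub_eq_zero.mp this
      have hmem := hXc n y hn ha hb hfixy
      have hsq := Fermat.Agent.S43.T1.FrobSq.frobSq_smul_of_mem_oneUnit hp.out hpq hA hqM hσ n hmem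
      rw [hfy, nsmul_sub, sub_eq_zero, smul_comm c (q ^ 2) y, ← hsq]
      have hcomm : ∀ z : JZero (M * q), σ • (c • z) = c • (σ • z) := fun z =>
        (DistribMulAction.toAddMonoidHom (JZero (M * q)) σ).map_nsmul c z
      rw [hcomm y, hcomm (σ • y)]
    · intro τ
      rw [map_sub, map_one, LinearMap.sub_apply, Module.End.one_apply, sub_eq_zero]
      exact hfix τ.1 τ.2
  rw [hf, map_mul, map_sub, map_mul, map_natCast, map_natCast, Module.End.mul_apply,
    LinearMap.sub_apply, Module.End.mul_apply, Module.End.natCast_apply,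
    Module.End.natCast_apply, ← rhoV_apply, smul_sub, sub_eq_zero] at key
  simp only [Nat.cast_smul_eq_nsmul]
  exact key

/-- **A rank-two Galois-stable lattice with trivial inertia at `q` and `det Frob_q = q` is not
new.**  The lattice is given as an injective `R`-linear map `j : Λ → R ⊗ Tp J₀(M q)` from a free
module of rank two, with an endomorphism `F` of `Λ` inducing `σ`. -/
theorem exists_not_new_of_det (hpq : p ≠ q) (hX : ToricOfNewFixed M q p)
    {A : ValuationSubring Kb} (hA : A.LiesOverPrime q) (hqM : ¬ q ∣ M)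
    {σ : GQ} (hσ : A.IsFrobeniusAt σ q)
    (R : Type*) [CommRing R] [IsDomain R] [CharZero R] [Algebra ℤ_[p] R]
    [Module.IsTorsionFree ℤ_[p] R]
    (Λ : Type*) [AddCommGroup Λ] [Module R Λ] [Module.Free R Λ] [Module.Finite R Λ]
    (h2 : Module.finrank R Λ = 2)
    (j : Λ →ₗ[R] R ⊗[ℤ_[p]] Tp p (JZero (M * q))) (hj : Function.Injective j)
    (F : Module.End R Λ)
    (hF : ∀ v : Λ, j (F v) = rhoV p R (JZero (M * q)) σ (j v))
    (hdet : LinearMap.det F = (q : R))
    (hfix : ∀ τ ∈ A.inertiaSubgroupIn ℚ, ∀ v : Λ, rhoV p R (JZero (M * q)) τ (j v) = j v) :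
    ∃ v : Λ, (Tp.map (p := p) (degPair M q)).baseChange R (j v) ≠ 0 := by
  by_contra hnew0
  have hnew : ∀ v : Λ, (Tp.map (p := p) (degPair M q)).baseChange R (j v) = 0 := fun v =>
    by_contra fun h => hnew0 ⟨v, h⟩
  obtain ⟨c, hc, hcσ⟩ := smul_frobSq_eq_of_new_of_fixed hpq hX hA hqM
  have hcR : (c : R) ≠ 0 := Nat.cast_ne_zero.mpr hc
  -- `F² = q²`
  have hFF : F * F = ((q ^ 2 : ℕ) : R) • (1 : Module.End R Λ) := by
    refine LinearMap.ext fun v => ?_
    have h1 := hcσ σ hσ R (j v) (hnew v) (fun τ hτ => hfix τ hτ v)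
    have h1' : j ((c : R) • F (F v)) = j ((c : R) • ((q ^ 2 : ℕ) : R) • v) := by
      rw [map_smul, map_smul, map_smul, hF, hF]
      exact h1
    have h3 := hj h1'
    have h4 : (c : R) • (F (F v) - ((q ^ 2 : ℕ) : R) • v) = 0 := by
      rw [smul_sub, h3, sub_self]
    have h5 := (smul_eq_zero.mp h4).resolve_left hcR
    rw [Module.End.mul_apply, LinearMap.smul_apply, Module.End.one_apply]
    exact sub_eq_zero.mp h5
  -- determinants
  have hd := congrArg LinearMap.det hFF
  rw [map_mul, hdet, LinearMap.det_smul, h2, map_one, mul_one] at hd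
  -- `q² = q⁴` in characteristic zero
  have hq2 : (2 : ℕ) ≤ q := hq.out.two_le
  have hnat : q * q = (q ^ 2) ^ 2 := by exact_mod_cast hd
  have hlt : q * q < (q ^ 2) ^ 2 := by
    have h4 : q * q = q ^ 2 := (pow_two q).symm
    rw [h4, pow_two (q ^ 2)]
    have hq2pos : 1 < q ^ 2 := by nlinarith
    nlinarith
  exact absurd hnat hlt.ne

end Fermat.Agent.S43.T1.NewSq
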