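/-
PROJECT R (row 37 by S43), BLOCK T1 = MAZUR'S PRINCIPLE AT A PRIME `q ≠ p` EXACTLY DIVIDING THE LEVEL,
ON THE `p ^ k`-TORSION OF `J₀(M q)`: **THE SEAM OF THE BLOCK** (helper18, leader T1).  DEFINITIONS ONLY.

Frame (everywhere): `q` prime (the RESIDUE prime = the prime removed from the level), `q ∤ M`,
`A` a valuation ring of `ℚ̄` over `q`, `F : ChartFrame hA hqM` a chart frame of main's S33/S44
(all of `S44/Core/FrameHyp`, `S44/X0/FrameAll`, `S44/X0/NodePairInst.exists_frame_spStd`,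
`S44/X0/NodeFrameDef`, `S44/Eis/Unit*`, `S44/Eis/HeckeK`, `S44/Eis/HeckeNode.exists_red₁_normBeta`,
`S44/Core/TubeTame`, `S44/Fin/HnnGood` is stated for an ARBITRARY frame prime and is used AS IS with
the frame prime `q`); `n` is the TORSION level (`n = p ^ k`, `p ≠ q`).  S44 conflates the two primes
only in its wrappers (`(p : ℤ) * D P = P.ord u`, `ZMod p`, `redSub … p`) and in TWO proofs:
`S44/Core/DimCount` (`frobPre`: `y ↦ y ^ p` additive in characteristic `p`) and `S44/Core/Export`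
(`p = ϖ₀ ^ E · unit`).

* EXPORTS OF THE BLOCK (consumer-facing, FRAME-FREE) = helper1's `T1/Hyp.lean`, adopted as they are:
  `Hyp.MazurDich M q p` (MD), `Hyp.FrobU M q p` (FU), `Hyp.ToricOfNewFixed M q p` (X),
  `Hyp.BadAt` (BAD = `T1/Bad.not_isGoodPrimeFor`, helper26, DONE).
  CONSUMER 1 = `Assembly/Reduce.MazurFrey` from (MD) + (FU) + (BAD): `T1/MazurFrey.lean` (helper1).
  CONSUMER 2 (exit N6) from (X) + `T1/FrobSq.frobSq_smul_of_mem_oneUnit` (helper1, DONE).
* VOCABULARY of the reductions at level `n` = helper26's `T1/Fin/RedN.lean` (`finRedN`, `rho1N`,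
  `rho2N`, (K) `mem_oneUnit_of_rho_eq_zero`, inertia invariance) and `T1/Fin/HeckeN.lean`
  ((H) `rho1N_hecke`, `rho2N_hecke`, `reductionModL_hecke_eq_rho1N/2N`), DONE.
* THIS FILE: §1 `HasNodeOrdN` (node orders at level `n`); §2 the INTERNAL seams still open, one `Prop`
  per brick, over an arbitrary frame, hypothesis-first, S44 shapes: `TameConstN` (N), `UnitSideN`,
  `HasOffRepN`, `EisEigenN` (E), `EisStepN` (E, operator form), `FinOfNodeOrdN`, `NormRelN`,
  `KummerN`, `FUZHyp`; §3 the composition table (comments).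
-/
import Fermat.Agent.S43.T1.Fin.HeckeN
import Fermat.Agent.S43.T1.Hyp
import Fermat.Agent.S44.X0.NodeFrameDef
import Fermat.Agent.S44.X0.NodePairInst
import Fermat.Agent.S35.FrobZOfPrincipal
import Fermat.Agent.S35.N1X0
import Fermat.Agent.S34.EulerX0

set_option autoImplicit false
set_option linter.unusedSectionVars false
set_option linter.unusedVariables false
set_option linter.style.haveILetI false
set_option synthInstance.maxHeartbeats 400000

noncomputable section

namespace Fermat.Agent.S43.T1.Seam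

open ModularCurve AlgebraicCurve IsLocalRing
open Fermat.Agent.S34.NodalDefs Fermat.Agent.S34.Z1X0 Fermat.Agent.S34.Z1Abstract
open Fermat.Agent.S34.CoreZX0Datum
open Fermat.Agent.S33.X0.Frame Fermat.Agent.S33.KP.OneUnit
open Fermat.Agent.S44.Core.NodeOrd Fermat.Agent.S44.Core.FrameHyp Fermat.Agent.S44.X0.FrameAll
open Fermat.Agent.S44.X0.NodeFrameDef
open Fermat.Agent.S44.Fin.Red Fermat.Agent.S44.Fin.RedHecke Fermat.Agent.S44.Eis.HeckeK
open Fermat.Agent.S43.T1.Fin.RedN
open Fermat.Agent.S35.LevelMaps Fermat.Agent.S35.DegeneracyHecke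
open Fermat.Agent.S30.Padic.TateModule
open Fermat.Agent.S18.B.FkBasics (jk)

local notation "Qbar" => AlgebraicClosure ℚ
local notation "GQ" => (AlgebraicClosure ℚ ≃ₐ[ℚ] AlgebraicClosure ℚ)

attribute [local instance 2000] Fermat.Agent.S34.EulerX0.algResFk

/-- local instance: principal divisors on `E` -/
local instance instPDBar (N : ℕ) [NeZero N] :
    HasPrincipalDivisors Qbar ↥(modularFunctionFieldBar N) :=
  Fermat.Agent.S18.A.Instances.hasPrincipalDivisors_bar N

/-- local instance: principal divisors on the components -/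
local instance instPDFk (A : ValuationSubring Qbar) (N : ℕ) [NeZero N] :
    HasPrincipalDivisors (ResidueField ↥A) ↥(modularFunctionFieldFullC (ResidueField ↥A) N) :=
  Fermat.Agent.S37.ReductionInputs.hasPrincipalDivisors_Fk A N

/-- local instance: the residue field is algebraically closed -/
local instance instACk (A : ValuationSubring Qbar) : IsAlgClosed (ResidueField ↥A) :=
  Fermat.Agent.S18.ResidueBasics.isAlgClosed_residueField A

local instance instNeZeroMul (M q : ℕ) [NeZero M] [NeZero q] : NeZero (M * q) :=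
  ⟨Nat.mul_ne_zero (NeZero.ne M) (NeZero.ne q)⟩

/-- local instance: a prime is not zero -/
local instance instNeZeroPrimes (r : Nat.Primes) : NeZero (r : ℕ) := ⟨r.2.ne_zero⟩

/-! ## §1 Vocabulary at torsion level `n` (frame prime `q`) -/

section Vocabulary

variable {q : ℕ} [hq : Fact q.Prime] {M : ℕ} [NeZero M] {A : ValuationSubring Qbar} [NeZero q]
variable {hA : A.LiesOverPrime q} {hqM : ¬ q ∣ M}

/-- **node orders at level `n`** (twin of `S44/Core/NodeOrd.HasNodeOrd`, `p ↦ n`): `x = [D]`,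
`n D = div u` with `u` a unit of the first Gauss ring, and `a e` is the order at `e1 e` of the
reduction of `u`, modulo `n`.  (`HasNodeOrdN F q = S44's HasNodeOrd F` by `Iff.rfl`.) -/
def HasNodeOrdN (F : ChartFrame hA hqM) (n : ℕ) (x : JZero (M * q)) (a : Node F → ZMod n) : Prop :=
  ∃ (D : Divisor.degZero (K := Qbar) (F := ↥(modularFunctionFieldBar (M * q))))
    (u : (F.X.N.R1.O)ˣ), Pic0.mk D = x ∧
    (∀ P : Place Qbar ↥(modularFunctionFieldBar (M * q)),
      (n : ℤ) * (D : Divisor Qbar ↥(modularFunctionFieldBar (M * q))) P =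
        P.ord (((u : F.X.N.R1.O) : ↥(modularFunctionFieldBar (M * q))))) ∧
    ∀ e : Node F, a e = (((F.X.N.e1 e).ord (F.X.N.R1.red (u : F.X.N.R1.O)) : ℤ) : ZMod n)

end Vocabulary

/-! ## §2 Internal seams of the block (one `Prop` per open brick, over an arbitrary frame) -/

section Bricks

variable {q : ℕ} [hq : Fact q.Prime] {M : ℕ} [NeZero M] {A : ValuationSubring Qbar} [NeZero q]
variable {hA : A.LiesOverPrime q} {hqM : ¬ q ∣ M}

/-- **(N)_n = [T1/Node/**, helper19] THE CORE AT `q`, unramified form** (twin of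
`S44/Top/Block4.TameConst` / `S44/X0/ExportInst.tameConst`, with the wild inertia `I₁` replaced by
the FULL inertia group at `A`, the tame datum by the UNRAMIFIED datum: `K₁` = the fixed field of the
inertia group, uniformiser `q`, ramification index `1`): an `n`-torsion class fixed by the inertia
group at `A` has node orders `a` with `w_e a_e = γ` for all nodes `e`. -/
def TameConstN (F : ChartFrame hA hqM) (n : ℕ) (w : Node F → ℕ) : Prop :=
  ∀ x : JZero (M * q), n • x = 0 → (∀ τ ∈ A.inertiaSubgroupIn ℚ, τ • x = x) →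
    ∃ a : Node F → ZMod n, HasNodeOrdN F n x a ∧ ∃ γ : ZMod n, ∀ e, ((w e : ℕ) : ZMod n) * a e = γ

/-- **[T1/Eis/UnitN] the unit side**, `n`-free (twin of `S44/Top/Block4.UnitSide`; the clause
"divisible by `p`" is replaced by "`= 0`", which is what `S44/Eis/UnitOff.ord_red_unitU_eq_zero`
proves).  ASSEMBLY ONLY: `S44/Eis/UnitSide.unitSide_of_nodeFrame` + `UnitOff.ord_red_unitU_eq_zero`
+ `UnitFinal.hasSepY`, all general in the frame prime. -/
def UnitSideN (F : ChartFrame hA hqM) (w : Node F → ℕ) : Prop :=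
  ∃ U1 : (F.X.N.R1.O)ˣ,
    (∀ e, (w e : ℤ) * (F.X.N.e1 e).ord (F.X.N.R1.red U1) = 12) ∧
    (∀ e, 0 ≤ (F.X.N.e1 e).ord (jk (ResidueField ↥A) M)) ∧
    (∀ Q, (∀ e, Q ≠ F.X.N.e1 e) → 0 ≤ Q.ord (jk (ResidueField ↥A) M) →
      Q.ord (F.X.N.R1.red U1) = 0) ∧
    ∀ (r : Nat.Primes), (r : ℕ) ≠ q → ¬ (r : ℕ) ∣ M →
      ∀ Δ : Divisor (ResidueField ↥A) ↥(modularFunctionFieldFullC (ResidueField ↥A) M),
      (∀ Q, Δ Q = Q.ord (F.X.N.R1.red U1)) →
      ∀ e, (w e : ℤ) * heckeDivK M hqM A hA (r : ℕ) Δ (F.X.N.e1 e) = 12 * (((r : ℕ) : ℤ) + 1)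

/-- **[T1/Fin/FinPartN, first half]** a representative `(D, u)` of `x`, `n D = div u`, `u` a unit of
the first Gauss ring whose reduction has order divisible by `n` at every place which is neither a node
nor a cusp (twin of `S44/Top/Block4.HasOffRep`). -/
def HasOffRepN (F : ChartFrame hA hqM) (n : ℕ) (x : JZero (M * q)) : Prop :=
  ∃ (D : Divisor.degZero (K := Qbar) (F := ↥(modularFunctionFieldBar (M * q))))
    (u : (F.X.N.R1.O)ˣ), Pic0.mk D = x ∧
    (∀ P : Place Qbar ↥(modularFunctionFieldBar (M * q)),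
      (n : ℤ) * (D : Divisor Qbar ↥(modularFunctionFieldBar (M * q))) P =
        P.ord (((u : F.X.N.R1.O)) : ↥(modularFunctionFieldBar (M * q)))) ∧
    ∀ Q, (∀ e, Q ≠ F.X.N.e1 e) → 0 ≤ Q.ord (jk (ResidueField ↥A) M) →
      (n : ℤ) ∣ Q.ord (F.X.N.R1.red u)

/-- **[T1/Fin/FinPartN, second half]** vanishing node orders give both reductions (twin of the second
clause of `S44/Top/Block4.HnnData` = `S44/Fin/Hnn.mem_finRed_of_hasNodeOrd_zero`).  NEEDS THE `n`-TWIN
OF `S44/Core/DimCount.dvd_ord_red_unit`, WHOSE PROOF ON MAIN USES `CharP k p` (`frobPre`): replace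
`frobPre` by the `k`-subspace `V := red12 (L(D + G) ∩ O₁ ∩ O₂)` itself (an image of a lattice under
an additive map compatible with the scalars IS a subspace; each of its elements `(a, b)` has
`(ū₁ aⁿ, ū₂ bⁿ)` glued; the bound `finrank_frobPre_le` uses only these two facts). -/
def FinOfNodeOrdN (F : ChartFrame hA hqM) (n : ℕ) : Prop :=
  ∀ x : JZero (M * q), HasNodeOrdN F n x 0 → x ∈ finRedN F n

/-- **(E) = [T1/Eis/StepN] the Eisenstein step, eigenclass form** (twin of
`S44/Top/Block4.hasNodeOrd_zero_of_const` = `S44/Eis/EisInst.hasNodeOrd_zero`; used by (MD) with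
`n = p`): a `T_r`-eigenclass with eigenvalue `a_r`, `a_r - (r + 1)` a unit modulo `n`, whose node
orders satisfy `w_e a_e = γ`, has all its node orders `0`. -/
def EisEigenN (F : ChartFrame hA hqM) (n : ℕ) (w : Node F → ℕ) : Prop :=
  ∀ (r : Nat.Primes), (r : ℕ) ≠ q → ¬ (r : ℕ) ∣ M → ∀ ar : ℤ,
    IsUnit ((ar : ZMod n) - (((r : ℕ) : ZMod n) + 1)) →
    ∀ x : JZero (M * q), heckeOperatorBar (M * q) r x = ar • x → HasOffRepN F n x →
    ∀ a : Node F → ZMod n, HasNodeOrdN F n x a →
      (∃ γ : ZMod n, ∀ e, ((w e : ℕ) : ZMod n) * a e = γ) → HasNodeOrdN F n x 0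

/-- **(E), OPERATOR form** (optional; for lattices): if `w_e a_e(x) = γ` for all nodes then all the
node orders of `T_r x - (r + 1) x` vanish (`r ≠ q`, `r ∤ M`; no eigenclass hypothesis). -/
def EisStepN (F : ChartFrame hA hqM) (n : ℕ) (w : Node F → ℕ) : Prop :=
  ∀ (r : Nat.Primes), (r : ℕ) ≠ q → ¬ (r : ℕ) ∣ M →
    ∀ (x : JZero (M * q)) (a : Node F → ZMod n), HasNodeOrdN F n x a → HasOffRepN F n x →
      (∃ γ : ZMod n, ∀ e, ((w e : ℕ) : ZMod n) * a e = γ) →
      HasNodeOrdN F n (heckeOperatorBar (M * q) r x - (((r : ℕ) : ℤ) + 1) • x) 0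

/-- **[T1/Fin/NormN] the two reductions of the degeneracy push-forwards** (for (X)): for `x` in the
finite part, `red (α_* x) = ρ₁ x + Φ ρ₂ x` and `red (β_* x) = Φ ρ₁ x + ρ₂ x`, `Φ` = the Frobenius of
the special fibre of level `M` (`coeffAut … (frobAut …)` of `S15/P/FrobFixed`); from the norm
formulas `S35/N1X0.norm_alpha_X0`, `norm_beta_X0` (general in the frame prime).  CONSEQUENCE: if
`α_* x = β_* x = 0` then `ρ₂ x = Φ² ρ₂ x` and `ρ₁ x = - Φ ρ₂ x`, so both are killed by the exponent of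
the finite group of `Φ²`-fixed points (`S15/P/FrobFixed/Red`, `X0.finite_frobFixed_pow`).  The
literal below is the consequence, which is all (X) uses. -/
def NormRelN (F : ChartFrame hA hqM) (n : ℕ) (hn : n ≠ 0) : Prop :=
  ∃ c : ℕ, c ≠ 0 ∧ ∀ x : finRedN F n, alphaPush M q (x : JZero (M * q)) = 0 →
    betaPush M q (x : JZero (M * q)) = 0 → c • rho1N F n hn x = 0 ∧ c • rho2N F n hn x = 0

/-- **the standing hypotheses on a frame** (what `S44/X0/NodePairInst.exists_frame_spStd` and
`S44/X0/NodeFrameSeam.nonempty_nodeFrame` provide, at every prime): the bricks of §2 are proved for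
every `(F, Y, NF)` with these. -/
structure StdFrame (F : ChartFrame hA hqM) where
  /-- the local node hypotheses -/
  Y : NodeHyp F
  /-- the node frame (exact node coordinates `ξ ζ = q ^ w`) -/
  NF : NodeFrame F Y
  /-- the first reduction is the standard one -/
  std1 : Fermat.Agent.S44.Eis.HeckeNode.RedStd F
  /-- the second reduction is the standard one -/
  std2 : Fermat.Agent.S44.Eis.HeckeNode.RedStd2 F
  /-- the local count -/
  lc : HasLocalCount F Y
  /-- the specialisation maps are the standard ones -/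
  sp : Fermat.Agent.S44.X0.NodePairInst.SpStd Y

end Bricks

/-! ## §3 Frame-free bricks and the composition table -/

section Exports

/-- **[T1/Fin/KummerN] from the special fibre of level `M` at `q` back to `J₀(M)(ℚ̄)[p]`** (twin of
`S44/Fin/KummerX0.exists_tate_eigenvector` with the residue prime `q` and the torsion prime `p`
SEPARATED; the abstract `S44/Alg/KummerLift.exists_eigenvector` is general). -/
def KummerN : Prop :=
  ∀ {q : ℕ} [Fact q.Prime] {p : ℕ} [Fact p.Prime] {M : ℕ} [NeZero M] (hqM : ¬ q ∣ M)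
    (A : ValuationSubring Qbar) (hA : A.LiesOverPrime q) (good : Set ℕ)
    (hgood : ∀ l ∈ good, ¬ l ∣ M ∧ l ≠ q) (a : ℕ → ℤ) (z : JZero M)
    (hz : reductionModL A M z ≠ 0) (hpz : p • reductionModL A M z = 0)
    (heig : ∀ y : JZero M, reductionModL A M y = reductionModL A M z →
      ∀ (l : ℕ) (hl : l.Prime), l ∈ good →
        reductionModL A M (heckeOperatorBar M ⟨l, hl⟩ y) = a l • reductionModL A M y),
    ∃ w : Tp p (JZero M), w.1 1 ≠ 0 ∧ ∀ (l : ℕ) (hl : l.Prime), l ∈ good →
      heckeOperatorBar M ⟨l, hl⟩ (w.1 1) = a l • w.1 1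

/-- **[T1/Frob/**] (FU) in function language** (the UNSQUARED twin of
`S35/FrobZOfPrincipal.FrobZHyp`): for `σ` a Frobenius lift at `A ∣ q` and `u` a one-unit of both Gauss
rings with `p ^ k`-divisible divisor, `σ_E u * (w_q u) ^ q = c * h ^ (p ^ k)`  (`Frob_q = - q w_q` on
the toric part: `w_q` exchanges the two branches at every node and acts on the nodes as the
Frobenius; nodal core = the SWAP twin of `S35/GlueGNodalFrob.principal_of_frobenius` for
`g = σ_E ∘ w_q`, which exchanges `O₁` and `O₂` and fixes every node).  `Hyp.FrobU M q p` follows with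
`U := - (w_q)_*` (`S34/EulerX0.wqAut`, `S34/WqGalois.smul_wq`). -/
def FUZHyp (M q p : ℕ) [NeZero M] [hq : Fact q.Prime] [NeZero q] : Prop :=
  ∀ (A : ValuationSubring Qbar) (hA : A.LiesOverPrime q) (hqM : ¬ q ∣ M),
    ∀ σ : GQ, A.IsFrobeniusAt σ q → ∀ k : ℕ,
      ∀ u : ↥(modularFunctionFieldBar (M * q)), Fermat.Agent.S34.KummerZ.Hn (K := Qbar) (p ^ k) u →
        IsOneUnit (V1X0 hA hqM) u → IsOneUnit (V2X0 hA hqM) u →
        ∃ (c : Qbar) (h : ↥(modularFunctionFieldBar (M * q))), c ≠ 0 ∧ h ≠ 0 ∧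
          arithmeticGalois (modularFunctionFieldFull (M * q)) σ • u *
              (Fermat.Agent.S34.WqGalois.wq M q hq.out hqM u) ^ q =
            algebraMap Qbar ↥(modularFunctionFieldBar (M * q)) c * h ^ (p ^ k)

/-- (FU) in class language, with `U = - w_q` made explicit (a sufficient form of `Hyp.FrobU`). -/
def FUHyp (M q p : ℕ) [NeZero M] [hq : Fact q.Prime] [NeZero q] : Prop :=
  ∀ (A : ValuationSubring Qbar) (hA : A.LiesOverPrime q) (hqM : ¬ q ∣ M),
    ∀ σ : GQ, A.IsFrobeniusAt σ q → ∀ k : ℕ, ∀ y ∈ oneUnit hA hqM (p ^ k),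
      σ • y + q • (Fermat.Agent.S34.EulerX0.wqAut hqM • y) = 0

/-!
### THE COMPOSITION TABLE (who proves what from what; `SF : StdFrame F`, `w := SF.NF.w`)

* (MD) `Hyp.MazurDich M q p`  ⟸  frame from `exists_frame_spStd` + `nonempty_nodeFrame`;
  `TameConstN F p w` (N) ; `UnitSideN F w` ; `∀ x, p • x = 0 → HasOffRepN F p x` ; `EisEigenN F p w` (E) ;
  `FinOfNodeOrdN F p` ; (H) `RedN/HeckeN.reductionModL_hecke_eq_rho1N/2N` ; (K)
  `HeckeN.mem_oneUnit_of_rho_eq_zero_of_redStd` ; `S44/Top/RedOnto.reductionModL_surjective` ; `KummerN`.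
  Template = `S44/Top/Block4.mem_finRed_of_const` + `S44/Top/Assemble.exists_tate_eigenvector_of_ne_zero`.
  File `T1/MazurDich.lean`.
* (X) `Hyp.ToricOfNewFixed M q p`  ⟸  `TameConstN F (p ^ k) w` (N) ; the MASS FORMULA
  (`c₁ := ∑_e 12 / w_e` kills `γ`: `∑_e a_e ≡ 0 mod n` by degree `0` + `HasOffRepN` at every non-node
  place, cusps included = `S44/Fin/Hnn.exists_offRep` twin; `w_e ∣ 12`, `p ∤ 12`) so `c₁ • x` has node
  orders `0` ; `FinOfNodeOrdN F (p ^ k)` ; `NormRelN F (p ^ k)` (`c₂`) ; (K).  `c = c₁ c₂`, independent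
  of `k`.  NO Eisenstein step, NO Hecke operator.  File `T1/ToricNew.lean`.
* (FU) `Hyp.FrobU M q p`  ⟸  `FUZHyp M q p` (function language) ⟸ the SWAP twin of
  `S35/GlueGNodalFrob` + the instance at `X₀(M q)` (twin of `S35/FrobZX0`, `FrobZX0Datum`,
  `FrobZOfGeneric`).  Files `T1/Frob/**`.
* (BAD) DONE (`T1/Bad.lean`).  CONSUMER 1 `T1/MazurFrey.lean` (helper1).  CONSUMER 2 `T1/NewSq.lean`
  (helper1) from (X) + `T1/FrobSq`.
-/

end Exports

end Fermat.Agent.S43.T1.Seam
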