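/-
PROJECT R (S43), block T1, file T1/ToricNew (helper19): **(X) `Hyp.ToricOfNewFixed M q p` FROM THE
BRICKS OF THE BLOCK**, for every `p ≠ 0` (no primality, no `p ≠ q`, no `p ∤ 12`).

`q ∤ M` prime, `A ∣ q`, `F : ChartFrame hA hqM` a standard frame (`Seam.StdFrame F`), `n ≠ 0` ANY
torsion order.  For `y ∈ J₀(M q)[n]` fixed by the inertia group of `A` and killed by `α_*`, `β_*`:

1. (N)_n (`T1/Node/Main.nodeConst`, helper19): `y` has node orders `a` with `w_e a_e = γ` for all `e`;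
2. THE MASS FORMULA (`sum_nodeOrd_eq_zero`): `∑_e a_e = 0` in `ZMod n`, because the divisor of the
   reduction of `u` has degree `0` and the orders at ALL the places which are not over a node are
   multiples of `n` (`T1/Fin/HnnN.exists_offRepN`, helper26);
3. hence (`massConst_mul_eq_zero`, elementary) `c₁ a_e = 0` for all `e` with the `n`-FREE constant
   `c₁ = (∑_e W / w_e) · W`, `W = ∏_e w_e`: from `W a_e = (W / w_e) γ` one gets
   `(∑_e W / w_e) γ = W ∑_e a_e = 0`; so `c₁ • y` has node orders `0`;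
4. `T1/Fin/HnnN.mem_finRedN_of_dvd_nodes` (helper26): `c₁ • y` has both reductions;
5. `NormRelAll F` (NAMED HYPOTHESIS = the brick `T1/Fin/NormN`, with its constant `c₂` UNIFORM in
   `n`): both reductions of `c₁ • y` are killed by `c₂`;
6. (K) (`T1/Fin/HeckeN.mem_oneUnit_of_rho_eq_zero_of_redStd`, helper26): `c₂ c₁ • y` is toric of
   level `n`.

`c = c₂ c₁` depends on the frame only.  No Eisenstein step, no Hecke operator, no unit side.

* `massConst`, `massConst_pos`, `massConst_mul_eq_zero` : the elementary computation;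
* `nsmul_hasNodeOrdN` : node orders of a multiple;
* `sum_nodeOrd_eq_zero` : the mass formula;
* `NormRelAll F`, `NormRelAll.normRelN` (it implies the seam's `NormRelN F n hn` for every `n`);
* `toric_of_new_fixed_frame` : (X) over a frame, at every torsion order `n ≠ 0`;
* `exists_stdFrame` : a standard frame exists at every prime (main's S44 stock);
* `toricOfNewFixed` : **(X)** = helper1's literal `Hyp.ToricOfNewFixed M q p`.
-/
import Fermat.Agent.S43.T1.Seam
import Fermat.Agent.S43.T1.Node.Bridge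
import Fermat.Agent.S43.T1.Fin.HnnN
import Fermat.Agent.S44.X0.NodeFrameSeam
import Fermat.Agent.S17.Div.Generic

set_option autoImplicit false
set_option linter.unusedSectionVars false
set_option linter.unusedVariables false
set_option linter.style.haveILetI false
set_option synthInstance.maxHeartbeats 400000

noncomputable section

namespace Fermat.Agent.S43.T1.ToricNew

open ModularCurve AlgebraicCurve IsLocalRing
open Fermat.Agent.S34.NodalDefs Fermat.Agent.S34.CoreZX0Datum
open Fermat.Agent.S33.X0.Frame Fermat.Agent.S33.KP.OneUnit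
open Fermat.Agent.S44.Core.NodeOrd Fermat.Agent.S44.Core.FrameHyp Fermat.Agent.S44.X0.FrameAll
open Fermat.Agent.S44.X0.NodeFrameDef
open Fermat.Agent.S44.Eis.HeckeNode
open Fermat.Agent.S35.DegeneracyHecke
open Fermat.Agent.S43.T1.Fin.RedN Fermat.Agent.S43.T1.Fin.HnnN
open Fermat.Agent.S43.T1.Node.Ord

local notation "Qbar" => AlgebraicClosure ℚ

attribute [local instance 2000] Fermat.Agent.S34.EulerX0.algResFk

/-- local instance: principal divisors on `E` -/
local instance instPDBar (N : ℕ) [NeZero N] :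
    HasPrincipalDivisors Qbar ↥(modularFunctionFieldBar N) :=
  Fermat.Agent.S18.A.Instances.hasPrincipalDivisors_bar N

/-- local instance: principal divisors on the components -/
local instance instPDFk (A : ValuationSubring Qbar) (N : ℕ) [NeZero N] :
    HasPrincipalDivisors (ResidueField ↥A) ↥(modularFunctionFieldFullC (ResidueField ↥A) N) :=
  Fermat.Agent.S37.ReductionInputs.hasPrincipalDivisors_Fk A N

/-! ## §1 The elementary mass computation -/

section Mass

variable {ι : Type*} [Fintype ι]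

/-- the mass constant of a family of thicknesses: `(∑_e W / w_e) · W`, `W = ∏_e w_e` -/
def massConst (w : ι → ℕ) : ℕ := (∑ e, (∏ e', w e') / w e) * ∏ e', w e'

theorem massConst_pos [Nonempty ι] (w : ι → ℕ) (hw : ∀ e, 1 ≤ w e) : 0 < massConst w := by
  have hW : 0 < ∏ e', w e' := Finset.prod_pos fun e _ => hw e
  refine Nat.mul_pos (Finset.sum_pos (fun e _ => ?_) Finset.univ_nonempty) hW
  exact Nat.div_pos (Nat.le_of_dvd hW (Finset.dvd_prod_of_mem w (Finset.mem_univ e))) (hw e)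

/-- **the mass computation**: if `w_e a_e = γ` for all `e` and `∑_e a_e = 0` in `ZMod n`, then the
mass constant kills every `a_e`. -/
theorem massConst_mul_eq_zero {n : ℕ} (w : ι → ℕ) (a : ι → ZMod n) (γ : ZMod n)
    (hγ : ∀ e, ((w e : ℕ) : ZMod n) * a e = γ) (hsum : ∑ e, a e = 0) (e : ι) :
    ((massConst w : ℕ) : ZMod n) * a e = 0 := by
  have h1 : ∀ e, ((∏ e', w e' : ℕ) : ZMod n) * a e =
      (((∏ e', w e') / w e : ℕ) : ZMod n) * γ := by
    intro e
    have h0 : (((∏ e', w e') / w e * w e : ℕ) : ZMod n) = ((∏ e', w e' : ℕ) : ZMod n) := by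
      rw [Nat.div_mul_cancel (Finset.dvd_prod_of_mem w (Finset.mem_univ e))]
    rw [← h0, Nat.cast_mul, mul_assoc, hγ e]
  have h2 : ((∑ e, (∏ e', w e') / w e : ℕ) : ZMod n) * γ = 0 := by
    rw [Nat.cast_sum, Finset.sum_mul]
    calc ∑ e, (((∏ e', w e') / w e : ℕ) : ZMod n) * γ
        = ∑ e, ((∏ e', w e' : ℕ) : ZMod n) * a e :=
          Finset.sum_congr rfl fun e _ => (h1 e).symm
      _ = ((∏ e', w e' : ℕ) : ZMod n) * ∑ e, a e := by rw [Finset.mul_sum]
      _ = 0 := by rw [hsum, mul_zero]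
  unfold massConst
  rw [Nat.cast_mul, mul_assoc, h1 e, ← mul_assoc,
    mul_comm ((∑ e, (∏ e', w e') / w e : ℕ) : ZMod n), mul_assoc, h2, mul_zero]

end Mass

section Frame

variable {q : ℕ} [hq : Fact q.Prime] {M : ℕ} [NeZero M] {A : ValuationSubring Qbar} [NeZero q]
variable {hA : A.LiesOverPrime q} {hqM : ¬ q ∣ M}

local instance instNeZeroMul : NeZero (M * q) :=
  ⟨Nat.mul_ne_zero (NeZero.ne M) (NeZero.ne q)⟩

variable {F : ChartFrame hA hqM} {n : ℕ}

/-! ## §2 Node orders of a multiple -/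

/-- the node orders of a multiple -/
theorem nsmul_hasNodeOrdN {x : JZero (M * q)} {a : Node F → ZMod n} (h : HasNodeOrdN F n x a)
    (c : ℕ) : HasNodeOrdN F n (c • x) (c • a) := by
  induction c with
  | zero =>
    rw [zero_nsmul, zero_nsmul]
    exact HasNodeOrdN.zero F n
  | succ c ih =>
    rw [succ_nsmul, succ_nsmul]
    exact ih.add h

/-! ## §3 The mass formula -/

set_option maxHeartbeats 1600000 in
/-- **THE MASS FORMULA**: the node orders of an `n`-torsion class add up to `0` modulo `n` (the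
divisor of the reduction of `u` has degree `0`, and its coefficients at the places which are not over
a node are multiples of `n`). -/
theorem sum_nodeOrd_eq_zero (hn : 0 < n) (Y : NodeHyp F) (hLC : HasLocalCount F Y)
    {x : JZero (M * q)} {a : Node F → ZMod n} (h : HasNodeOrdN F n x a) : ∑ e, a e = 0 := by
  classical
  obtain ⟨D, u, hDx, hD, hoff⟩ := exists_offRepN hn Y hLC x h.nsmul_eq_zero
  have h' : HasNodeOrdN F n x
      (fun e => (((F.X.N.e1 e).ord (F.X.N.R1.red (u : F.X.N.R1.O)) : ℤ) : ZMod n)) :=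
    ⟨D, u, hDx, hD, fun e => rfl⟩
  rw [h.unique h']
  obtain ⟨Δ, hΔ, hdeg⟩ := HasPrincipalDivisors.exists_divisor (K := ResidueField ↥A)
    (F.X.N.R1.red (u : F.X.N.R1.O))
    (Fermat.Agent.S34.NodalDisc.red_unit_ne_zero F.X.N.R1.toBranch u)
  rw [Fermat.Agent.S17.Div.Generic.degree_eq_sum (fun Q => F.deg_eq_one_k Q) Δ] at hdeg
  have he1 : Function.Injective F.X.N.e1 := by
    intro e e' h
    rw [Y.e1_eq e, Y.e1_eq e'] at h
    exact Subtype.ext (Y.Fr.injective h)
  obtain ⟨N1, hN1⟩ : ∃ N1 : Finset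
      (Place (ResidueField ↥A) ↥(modularFunctionFieldFullC (ResidueField ↥A) M)),
      N1 = Finset.univ.image F.X.N.e1 := ⟨_, rfl⟩
  have h1 : ∑ v ∈ Δ.support ∪ N1, Δ v = 0 := by
    rw [← Finset.sum_subset (Finset.subset_union_left (s₁ := Δ.support) (s₂ := N1))
      (fun v _ hv => Finsupp.notMem_support_iff.mp hv)]
    exact hdeg
  rw [← Finset.sum_sdiff (Finset.subset_union_right (s₁ := Δ.support) (s₂ := N1))] at h1
  have h2 : (n : ℤ) ∣ ∑ v ∈ (Δ.support ∪ N1) \ N1, Δ v := Finset.dvd_sum fun v hv => by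
    rw [hΔ v]
    refine hoff v fun e he => ?_
    exact (Finset.mem_sdiff.mp hv).2 (hN1 ▸ Finset.mem_image.mpr ⟨e, Finset.mem_univ e, he.symm⟩)
  have h3 : ∑ v ∈ N1, Δ v = ∑ e, (F.X.N.e1 e).ord (F.X.N.R1.red (u : F.X.N.R1.O)) := by
    rw [hN1, Finset.sum_image (fun e _ e' _ h => he1 h)]
    exact Finset.sum_congr rfl fun e _ => hΔ _
  have h4 : (n : ℤ) ∣ ∑ e, (F.X.N.e1 e).ord (F.X.N.R1.red (u : F.X.N.R1.O)) := by
    rw [← h3]
    have h5 : ∑ v ∈ N1, Δ v = - ∑ v ∈ (Δ.support ∪ N1) \ N1, Δ v := by linarith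
    rw [h5]
    exact (dvd_neg).mpr h2
  rw [← Int.cast_sum]
  exact (ZMod.intCast_zmod_eq_zero_iff_dvd _ n).mpr h4

/-! ## §4 (X) over a frame -/

/-- **the brick `T1/Fin/NormN`, with its constant UNIFORM in the torsion order** (the seam's
`NormRelN F n hn` has its constant inside "for this `n`"; (X) needs it independent of `n = p ^ k`):
a constant `c ≠ 0` killing both reductions of every class of the finite part, of every level `n`,
which is killed by the two degeneracy push-forwards. -/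
def NormRelAll (F : ChartFrame hA hqM) : Prop :=
  ∃ c : ℕ, c ≠ 0 ∧ ∀ (n : ℕ) (hn : n ≠ 0) (x : finRedN F n),
    alphaPush M q (x : JZero (M * q)) = 0 → betaPush M q (x : JZero (M * q)) = 0 →
      c • rho1N F n hn x = 0 ∧ c • rho2N F n hn x = 0

/-- the uniform form implies the seam's literal at every level -/
theorem NormRelAll.normRelN (h : NormRelAll F) (n : ℕ) (hn : n ≠ 0) :
    Fermat.Agent.S43.T1.Seam.NormRelN F n hn := by
  obtain ⟨c, hc, h⟩ := h
  exact ⟨c, hc, fun x hα hβ => h n hn x hα hβ⟩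

set_option maxHeartbeats 1600000 in
/-- **(X) over a standard frame, at EVERY torsion order `n ≠ 0`**: a constant `c ≠ 0` (depending on
the frame only) such that `c • y` is toric of level `n` for every `y ∈ J₀(M q)[n]` killed by `α_*`,
`β_*` and fixed by the inertia group of `A ∣ q`. -/
theorem toric_of_new_fixed_frame (F : ChartFrame hA hqM) (Y : NodeHyp F) (NF : NodeFrame F Y)
    (hstd : RedStd F) (hstd2 : Fermat.Agent.S44.Eis.HeckeNode.RedStd2 F) (hLC : HasLocalCount F Y)
    (hNR : NormRelAll F) :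
    ∃ c : ℕ, c ≠ 0 ∧ ∀ n : ℕ, n ≠ 0 → ∀ y : JZero (M * q), n • y = 0 →
      alphaPush M q y = 0 → betaPush M q y = 0 →
      (∀ τ ∈ A.inertiaSubgroupIn ℚ, τ • y = y) → c • y ∈ oneUnit hA hqM n := by
  classical
  obtain ⟨c2, hc2, hNR⟩ := hNR
  obtain ⟨c1, hc1, hmass⟩ : ∃ c1 : ℕ, c1 ≠ 0 ∧ ∀ (n : ℕ) (a : Node F → ZMod n) (γ : ZMod n),
      (∀ e, ((NF.w e : ℕ) : ZMod n) * a e = γ) → ∑ e, a e = 0 →
        ∀ e, ((c1 : ℕ) : ZMod n) * a e = 0 := by
    by_cases hne : Nonempty (Node F)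
    · exact ⟨massConst NF.w, (massConst_pos NF.w NF.w_pos).ne',
        fun n a γ hγ hs e => massConst_mul_eq_zero NF.w a γ hγ hs e⟩
    · exact ⟨1, one_ne_zero, fun n a γ _ _ e => (hne ⟨e⟩).elim⟩
  refine ⟨c2 * c1, Nat.mul_ne_zero hc2 hc1, fun n hn y hny hα hβ hfix => ?_⟩
  have hpos : 0 < n := Nat.pos_of_ne_zero hn
  obtain ⟨a, ha, γ, hγ⟩ := Fermat.Agent.S43.T1.Node.Main.nodeConst F Y NF hLC y hny hfix
  have hsum := sum_nodeOrd_eq_zero hpos Y hLC ha
  have h0 : HasNodeOrdN F n (c1 • y) 0 := by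
    have h1 := nsmul_hasNodeOrdN ha c1
    have h2 : c1 • a = 0 := funext fun e => by
      rw [Pi.smul_apply, nsmul_eq_mul, Pi.zero_apply]
      exact hmass n a γ hγ hsum e
    rwa [h2] at h1
  obtain ⟨D, u, hDx, hD, hnode⟩ := h0
  have hmem : c1 • y ∈ finRedN F n := by
    rw [← hDx]
    refine mem_finRedN_of_dvd_nodes hpos Y hLC D u hD fun e => ?_
    have h1 := hnode e
    rw [Pi.zero_apply] at h1
    exact (ZMod.intCast_zmod_eq_zero_iff_dvd _ n).mp h1.symm
  have hα1 : alphaPush M q (c1 • y) = 0 := by rw [map_nsmul, hα, smul_zero]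
  have hβ1 : betaPush M q (c1 • y) = 0 := by rw [map_nsmul, hβ, smul_zero]
  obtain ⟨hr1, hr2⟩ := hNR n hn ⟨c1 • y, hmem⟩ hα1 hβ1
  have hK := Fermat.Agent.S43.T1.Fin.HeckeN.mem_oneUnit_of_rho_eq_zero_of_redStd hn hstd hstd2
    (c2 • (⟨c1 • y, hmem⟩ : finRedN F n)) (by rw [map_nsmul, hr1]) (by rw [map_nsmul, hr2])
  rw [mul_smul]
  exact hK

/-! ## §5 (X) -/

/-- **a standard frame exists at every prime** (`S44/X0/NodeFrameSeam.exists_frame_nodeFrame`) -/
theorem exists_stdFrame (hA : A.LiesOverPrime q) (hqM : ¬ q ∣ M) :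
    ∃ F : ChartFrame hA hqM, Nonempty (Fermat.Agent.S43.T1.Seam.StdFrame F) := by
  obtain ⟨F, Y, hstd, hstd2, hLC, hsp, NF, -⟩ :=
    Fermat.Agent.S44.X0.NodeFrameSeam.exists_frame_nodeFrame hA hqM
  exact ⟨F, ⟨⟨Y, NF, hstd, hstd2, hLC, hsp⟩⟩⟩

/-- (X) over a standard frame of the seam -/
theorem toric_of_new_fixed_std {F : ChartFrame hA hqM} (SF : Fermat.Agent.S43.T1.Seam.StdFrame F)
    (hNR : NormRelAll F) :
    ∃ c : ℕ, c ≠ 0 ∧ ∀ n : ℕ, n ≠ 0 → ∀ y : JZero (M * q), n • y = 0 →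
      alphaPush M q y = 0 → betaPush M q y = 0 →
      (∀ τ ∈ A.inertiaSubgroupIn ℚ, τ • y = y) → c • y ∈ oneUnit hA hqM n :=
  toric_of_new_fixed_frame F SF.Y SF.NF SF.std1 SF.std2 SF.lc hNR

end Frame

/-- **(X) = helper1's literal `Hyp.ToricOfNewFixed M q p`**, for every `p ≠ 0`, from the uniform norm
relation `NormRelAll` at the standard frames. -/
theorem toricOfNewFixed (M q p : ℕ) [NeZero M] [Fact q.Prime] [NeZero q] [NeZero (M * q)]
    (hp : p ≠ 0)
    (hNR : ∀ (A : ValuationSubring Qbar) (hA : A.LiesOverPrime q) (hqM : ¬ q ∣ M)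
      (F : ChartFrame hA hqM), Fermat.Agent.S43.T1.Seam.StdFrame F → NormRelAll F) :
    Fermat.Agent.S43.T1.Hyp.ToricOfNewFixed M q p := by
  intro A hA hqM
  obtain ⟨F, ⟨SF⟩⟩ := exists_stdFrame hA hqM
  obtain ⟨c, hc, h⟩ := toric_of_new_fixed_std SF (hNR A hA hqM F SF)
  exact ⟨c, hc, fun k y hy hα hβ hfix => h (p ^ k) (pow_ne_zero k hp) y hy hα hβ hfix⟩

end Fermat.Agent.S43.T1.ToricNew

end
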