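/-
PROJECT R (S43), block T1 (helper1): **(X) = `Hyp.ToricOfNewFixed M q p` IS A THEOREM** (every
`p ≠ 0`, no hypothesis left): helper19's `T1/ToricNew.toricOfNewFixed` fed with
`T1/Fin/NormN.normRelAll`.

`toricOfNewFixed : p ≠ 0 → Hyp.ToricOfNewFixed M q p`;
`toric_of_new_fixed : ` the same at EVERY torsion order `n ≠ 0`, with one constant.
-/
import Fermat.Agent.S43.T1.ToricNew
import Fermat.Agent.S43.T1.Fin.NormN

set_option autoImplicit false
set_option linter.unusedSectionVars false
set_option linter.unusedVariables false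
set_option synthInstance.maxHeartbeats 400000

noncomputable section

namespace Fermat.Agent.S43.T1.ToricNewMain

open ModularCurve AlgebraicCurve
open Fermat.Agent.S33.X0.Frame Fermat.Agent.S33.KP.OneUnit
open Fermat.Agent.S35.DegeneracyHecke

local notation "Qbar" => AlgebraicClosure ℚ

/-- **(X)**: new + fixed by inertia at `q` ⟹ toric up to a constant independent of `k`. -/
theorem toricOfNewFixed (M q p : ℕ) [NeZero M] [Fact q.Prime] [NeZero q] [NeZero (M * q)]
    (hp : p ≠ 0) : Fermat.Agent.S43.T1.Hyp.ToricOfNewFixed M q p :=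
  Fermat.Agent.S43.T1.ToricNew.toricOfNewFixed M q p hp
    (fun A hA hqM F SF => Fermat.Agent.S43.T1.Fin.NormN.normRelAll SF.std1 SF.std2)

/-- **(X) at every torsion order**: one constant `c ≠ 0` (depending on `A ∣ q` only) with
`c • y` toric of level `n` for every new `n`-torsion class fixed by the inertia group of `A`. -/
theorem toric_of_new_fixed {M q : ℕ} [NeZero M] [Fact q.Prime] [NeZero q] [NeZero (M * q)]
    {A : ValuationSubring Qbar} (hA : A.LiesOverPrime q) (hqM : ¬ q ∣ M) :
    ∃ c : ℕ, c ≠ 0 ∧ ∀ n : ℕ, n ≠ 0 → ∀ y : JZero (M * q), n • y = 0 →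
      alphaPush M q y = 0 → betaPush M q y = 0 →
      (∀ τ ∈ A.inertiaSubgroupIn ℚ, τ • y = y) → c • y ∈ oneUnit hA hqM n := by
  obtain ⟨F, ⟨SF⟩⟩ := Fermat.Agent.S43.T1.ToricNew.exists_stdFrame hA hqM
  exact Fermat.Agent.S43.T1.ToricNew.toric_of_new_fixed_std SF
    (Fermat.Agent.S43.T1.Fin.NormN.normRelAll SF.std1 SF.std2)

end Fermat.Agent.S43.T1.ToricNewMain
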