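import Mathlib
import Fermat.Prelude.Def_FLTPrelim_FreyPackage
import Fermat.Prelude.Def_FLTPrelim_Modularity
import Fermat.Agent.S12.V3.FreyInt

/-!
# PROJECT R, block T1: (BAD)

Every integral model `W` of the Frey curve has bad reduction at every odd prime dividing `a b c`:
`W` is a rational change of variables `u` of the integral model `P.freyCurveInt`, whose
discriminant is divisible by `ℓ` while its `c₄` is not; integrality of `c₄(W) = u⁻⁴ c₄` forces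
`v_ℓ(u⁻¹) ≥ 0`, hence `ℓ ∣ Δ(W) = u⁻¹² Δ`.
-/

set_option autoImplicit false

namespace Fermat.Agent.S43.T1.Bad

open Fermat.Agent.S12.V3

/-- Pure arithmetic core: `t ∈ ℚ`, integers `c d C D` with `t ^ 4 c = C`, `t ^ 12 d = D`,
`ℓ ∤ c`, `ℓ ∣ d`: then `ℓ ∣ D`. -/
theorem dvd_of_scaling {ℓ : ℕ} (hℓ : ℓ.Prime) (t : ℚ) (c d C D : ℤ)
    (hC : t ^ 4 * (c : ℚ) = (C : ℚ)) (hD : t ^ 12 * (d : ℚ) = (D : ℚ))
    (hc : ¬ (ℓ : ℤ) ∣ c) (hd : (ℓ : ℤ) ∣ d) : (ℓ : ℤ) ∣ D := by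
  have : Fact ℓ.Prime := ⟨hℓ⟩
  by_cases hD0 : D = 0
  · rw [hD0]; exact dvd_zero _
  have hc0 : c ≠ 0 := fun h => hc (h ▸ dvd_zero _)
  have hDq : (D : ℚ) ≠ 0 := by exact_mod_cast hD0
  have ht : t ≠ 0 := by
    rintro rfl
    rw [zero_pow (by norm_num), zero_mul] at hD
    exact hDq hD.symm
  have hd0 : d ≠ 0 := by
    rintro rfl
    rw [Int.cast_zero, mul_zero] at hD
    exact hDq hD.symm
  have hcq : (c : ℚ) ≠ 0 := by exact_mod_cast hc0
  have hdq : (d : ℚ) ≠ 0 := by exact_mod_cast hd0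
  have hCq : (C : ℚ) ≠ 0 := by
    rw [← hC]; exact mul_ne_zero (pow_ne_zero _ ht) hcq
  -- valuations
  have hvc : padicValRat ℓ (c : ℚ) = 0 := by
    rw [padicValRat.of_int]
    exact_mod_cast padicValInt.eq_zero_of_not_dvd hc
  have hvC : 0 ≤ padicValRat ℓ (C : ℚ) := by
    rw [padicValRat.of_int]; exact_mod_cast Nat.zero_le _
  have hvd : 1 ≤ padicValRat ℓ (d : ℚ) := by
    rw [padicValRat.of_int]
    have : 1 ≤ padicValInt ℓ d := by
      have h1 := (padicValInt_dvd_iff (p := ℓ) 1 d).mp (by simpa using hd)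
      rcases h1 with h1 | h1
      · exact absurd h1 hd0
      · exact h1
    exact_mod_cast this
  have h4 : padicValRat ℓ (t ^ 4 * (c : ℚ)) = 4 * padicValRat ℓ t + padicValRat ℓ (c : ℚ) := by
    rw [padicValRat.mul (pow_ne_zero _ ht) hcq, padicValRat.pow t]; push_cast; ring
  have h12 : padicValRat ℓ (t ^ 12 * (d : ℚ))
      = 12 * padicValRat ℓ t + padicValRat ℓ (d : ℚ) := by
    rw [padicValRat.mul (pow_ne_zero _ ht) hdq, padicValRat.pow t]; push_cast; ring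
  rw [hC] at h4
  rw [hD] at h12
  have hvt : 0 ≤ padicValRat ℓ t := by omega
  have hvD : 1 ≤ padicValRat ℓ (D : ℚ) := by omega
  rw [padicValRat.of_int] at hvD
  have hvD' : 1 ≤ padicValInt ℓ D := by exact_mod_cast hvD
  have := (padicValInt_dvd_iff (p := ℓ) 1 D).mpr (Or.inr hvD')
  simpa using this

/-- **(BAD)** Every integral model of the Frey curve has bad reduction at every odd prime
dividing `a b c`. -/
theorem not_isGoodPrimeFor (P : FreyPackage) (W : WeierstrassCurve ℤ)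
    (hW : W.IsIntegralModelOf P.freyCurve) (ℓ : ℕ) (hℓ : ℓ.Prime) (h2 : ℓ ≠ 2)
    (h : (ℓ : ℤ) ∣ P.a * P.b * P.c) : ¬ W.IsGoodPrimeFor ℓ := by
  obtain ⟨C, hC⟩ := hW
  rw [← FreyInt.freyCurveInt_map P] at hC
  have hΔ := congrArg WeierstrassCurve.Δ hC
  have hc₄ := congrArg WeierstrassCurve.c₄ hC
  rw [WeierstrassCurve.variableChange_Δ, WeierstrassCurve.map_Δ, WeierstrassCurve.map_Δ] at hΔ
  rw [WeierstrassCurve.variableChange_c₄, WeierstrassCurve.map_c₄, WeierstrassCurve.map_c₄] at hc₄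
  intro hgood
  apply hgood
  exact dvd_of_scaling hℓ ((C.u⁻¹ : ℚˣ) : ℚ) P.freyCurveInt.c₄ P.freyCurveInt.Δ W.c₄ W.Δ
    (by simpa using hc₄) (by simpa using hΔ) (FreyInt.not_dvd_c₄ P hℓ h) (FreyInt.dvd_Δ P hℓ h2 h)

end Fermat.Agent.S43.T1.Bad
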