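/-
PROJECT R (S43), block T1, brick (d) of the leader's cut (helper1): **(MD) = `Hyp.MazurDich M q p`
FROM THE INTERNAL BRICKS OF `T1/Seam.lean`**, hypothesis-first.

Twin of main's `S44/Top/Block4.mem_finRed_of_const` + the key step of `S44/Top/Assemble`
(`exists_tate_eigenvector_of_ne_zero`), with the frame prime `q` and the torsion prime `p`
separated.

`mazurDich_of_bricks` : for a standard frame `SF : StdFrame F` at every `A ∣ q` (main:
`S44/X0/NodePairInst.exists_frame_spStd` + `S44/X0/NodeFrameSeam.nonempty_nodeFrame`):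
`TameConstN F p w` (N) + `HasOffRepN F p x` for all `p`-torsion `x` + `EisEigenN F p w` (E) +
`FinOfNodeOrdN F p` + `KummerN` ⟹ `Hyp.MazurDich M q p`.
(H), (K) are helper26's `T1/Fin/HeckeN` (theorems), the surjectivity of the reduction is main's
`S44/Top/RedOnto.reductionModL_surjective`.
-/
import Fermat.Agent.S43.T1.Seam
import Fermat.Agent.S44.X0.NodeFrameSeam
import Fermat.Agent.S44.Top.RedOnto

set_option autoImplicit false
set_option linter.unusedSectionVars false
set_option linter.unusedVariables false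
set_option linter.style.haveILetI false
set_option synthInstance.maxHeartbeats 400000

noncomputable section

namespace Fermat.Agent.S43.T1.MazurDich

open ModularCurve AlgebraicCurve IsLocalRing
open Fermat.Agent.S33.X0.Frame Fermat.Agent.S33.KP.OneUnit
open Fermat.Agent.S44.Core.FrameHyp Fermat.Agent.S44.X0.FrameAll
open Fermat.Agent.S44.X0.NodeFrameDef
open Fermat.Agent.S43.T1.Fin.RedN Fermat.Agent.S43.T1.Fin.HeckeN
open Fermat.Agent.S43.T1.Seam Fermat.Agent.S43.T1.Hyp
open Fermat.Agent.S30.Padic.TateModule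

local notation "Qbar" => AlgebraicClosure ℚ

attribute [local instance 2000] Fermat.Agent.S34.EulerX0.algResFk

variable {q : ℕ} [hq : Fact q.Prime] {M : ℕ} [NeZero M] [NeZero q] [NeZero (M * q)]
variable {p : ℕ} [hp : Fact p.Prime]

/-- **a standard frame exists at every place over `q`** (main) -/
theorem exists_stdFrame {A : ValuationSubring Qbar} (hA : A.LiesOverPrime q) (hqM : ¬ q ∣ M) :
    ∃ F : ChartFrame hA hqM, Nonempty (StdFrame F) := by
  obtain ⟨F, Y, hstd, hstd2, hLC, hsp⟩ :=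
    Fermat.Agent.S44.X0.NodePairInst.exists_frame_spStd hA hqM
  obtain ⟨NF⟩ := Fermat.Agent.S44.X0.NodeFrameSeam.nonempty_nodeFrame Y hsp hstd hstd2 hLC
  exact ⟨F, ⟨⟨Y, NF, hstd, hstd2, hLC, hsp⟩⟩⟩

set_option maxHeartbeats 800000 in
/-- **(MD) from the bricks.** -/
theorem mazurDich_of_bricks
    (hN : ∀ {A : ValuationSubring Qbar} {hA : A.LiesOverPrime q} {hqM : ¬ q ∣ M}
      {F : ChartFrame hA hqM} (SF : StdFrame F), TameConstN F p SF.NF.w)
    (hOff : ∀ {A : ValuationSubring Qbar} {hA : A.LiesOverPrime q} {hqM : ¬ q ∣ M}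
      {F : ChartFrame hA hqM} (SF : StdFrame F), ∀ x : JZero (M * q), p • x = 0 →
        HasOffRepN F p x)
    (hE : ∀ {A : ValuationSubring Qbar} {hA : A.LiesOverPrime q} {hqM : ¬ q ∣ M}
      {F : ChartFrame hA hqM} (SF : StdFrame F), EisEigenN F p SF.NF.w)
    (hFin : ∀ {A : ValuationSubring Qbar} {hA : A.LiesOverPrime q} {hqM : ¬ q ∣ M}
      {F : ChartFrame hA hqM} (SF : StdFrame F), FinOfNodeOrdN F p)
    (hK : KummerN) : MazurDich M q p := by
  intro A hA hqM good hgood a hnonEis y hpy hfix heig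
  have hp0 : p ≠ 0 := hp.out.ne_zero
  obtain ⟨F, ⟨SF⟩⟩ := exists_stdFrame hA hqM
  -- (N): node orders with `w_e a_e = γ`
  obtain ⟨a', ha', γ, hγ⟩ := hN SF y hpy hfix
  -- (E): the node orders vanish
  obtain ⟨r, hrg, hr, hrne⟩ := hnonEis
  obtain ⟨hrM, hrq, hrp⟩ := hgood r hrg
  have hunit : IsUnit (((a r : ℤ) : ZMod p) - (((r : ℕ) : ZMod p) + 1)) := by
    rw [isUnit_iff_ne_zero]
    intro h0
    apply hrne
    rw [← ZMod.intCast_zmod_eq_zero_iff_dvd]
    push_cast
    exact h0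
  have h0 : HasNodeOrdN F p y 0 :=
    hE SF ⟨r, hr⟩ hrq hrM (a r) hunit y (heig r hr hrg) (hOff SF y hpy) a' ha' ⟨γ, hγ⟩
  -- the finite part
  have hyfin : y ∈ finRedN F p := hFin SF y h0
  set x : finRedN F p := ⟨y, hyfin⟩ with hx
  -- a non-zero reduction gives a Tate vector of level `M`
  have key : ∀ (ρ : finRedN F p →+ JZeroC (ResidueField ↥A) M), (∀ z, p • ρ z = 0) →
      (∀ (s : Nat.Primes), (s : ℕ) ≠ q → ¬ (s : ℕ) ∣ M → ∀ (z : finRedN F p) (b : ℤ),
        heckeOperatorBar (M * q) s (z : JZero (M * q)) = b • (z : JZero (M * q)) →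
        ∀ (y' : JZero M) (c : ℤ), reductionModL A M y' = c • ρ z →
          reductionModL A M (heckeOperatorBar M s y' - b • y') = 0) →
      ρ x ≠ 0 →
      ∃ w : Tp p (JZero M), w.1 1 ≠ 0 ∧ ∀ (s : ℕ) (hs : s.Prime), s ∈ good →
        heckeOperatorBar M ⟨s, hs⟩ (w.1 1) = a s • w.1 1 := by
    intro ρ hpρ hρ hne
    obtain ⟨z, hz⟩ := Fermat.Agent.S44.Top.RedOnto.reductionModL_surjective M A hA hqM (ρ x)
    refine hK hqM A hA good (fun l hl => ⟨(hgood l hl).1, (hgood l hl).2.1⟩) a z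
      (by rw [hz]; exact hne) (by rw [hz]; exact hpρ x) ?_
    intro y' hy' l hl hlg
    have h := hρ ⟨l, hl⟩ (hgood l hlg).2.1 (hgood l hlg).1 x (a l) (heig l hl hlg) y' 1
      (by rw [hy', hz, one_smul])
    rw [map_sub, map_zsmul, sub_eq_zero] at h
    exact h
  by_cases h1 : rho1N F p hp0 x = 0
  · by_cases h2 : rho2N F p hp0 x = 0
    · -- (K): toric
      right
      exact mem_oneUnit_of_rho_eq_zero_of_redStd hp0 SF.std1 SF.std2 x h1 h2
    · left
      exact key (rho2N F p hp0) (nsmul_rho2N hp0)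
        (fun s hsq hsM z b hz y' c hy' =>
          reductionModL_hecke_eq_rho2N hp0 SF.std2 s hsq hsM z b hz y' c hy') h2
  · left
    exact key (rho1N F p hp0) (nsmul_rho1N hp0)
      (fun s hsq hsM z b hz y' c hy' =>
        reductionModL_hecke_eq_rho1N hp0 SF.std1 s hsq hsM z b hz y' c hy') h1

end Fermat.Agent.S43.T1.MazurDich
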