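/-
PROJECT R (S43), block T1 (helper1): **(MD) = `Hyp.MazurDich M q p` IS A THEOREM for `p ≥ 5`**
(no hypothesis left): the assembly of `T1/MazurDich.mazurDich_of_bricks` with

* (N)_p  = helper19's `T1/Node/Main.nodeConst` (the literal `Seam.HasNodeOrdN` and
  `Node.Ord.HasNodeOrdN` are the same body);
* `HasOffRepN`, `FinOfNodeOrdN` = helper26's `T1/Fin/HnnSeam`;
* (E) = helper16's `T1/Eis/StepN.eisEigenN` (needs `p` prime to `12`: this is where `p ≥ 5` enters);
* `KummerN` = helper26's `T1/Fin/KummerN.kummerN`.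
-/
import Fermat.Agent.S43.T1.MazurDich
import Fermat.Agent.S43.T1.Node.Main
import Fermat.Agent.S43.T1.Fin.HnnSeam
import Fermat.Agent.S43.T1.Fin.KummerN
import Fermat.Agent.S43.T1.Eis.StepN

set_option autoImplicit false
set_option linter.unusedSectionVars false
set_option linter.unusedVariables false
set_option synthInstance.maxHeartbeats 400000

noncomputable section

namespace Fermat.Agent.S43.T1.MazurDichMain

open ModularCurve AlgebraicCurve
open Fermat.Agent.S33.X0.Frame
open Fermat.Agent.S43.T1.Seam Fermat.Agent.S43.T1.Hyp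

local notation "Qbar" => AlgebraicClosure ℚ

variable {q : ℕ} [hq : Fact q.Prime] {M : ℕ} [NeZero M] [NeZero q] [NeZero (M * q)]
variable {p : ℕ} [hp : Fact p.Prime]

/-- a prime `p ≥ 5` is prime to `12` -/
theorem coprime_twelve (h5 : 5 ≤ p) : p.Coprime 12 := by
  have h2 : ¬ p ∣ 2 := fun h => by
    have := Nat.le_of_dvd (by norm_num) h
    omega
  have h3 : ¬ p ∣ 3 := fun h => by
    have := Nat.le_of_dvd (by norm_num) h
    omega
  have h12 : (12 : ℕ) = 2 * 2 * 3 := by norm_num
  rw [h12]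
  exact Nat.Coprime.mul_right
    (Nat.Coprime.mul_right ((Nat.Prime.coprime_iff_not_dvd hp.out).mpr h2)
      ((Nat.Prime.coprime_iff_not_dvd hp.out).mpr h2))
    ((Nat.Prime.coprime_iff_not_dvd hp.out).mpr h3)

/-- **(N) in the literal of the seam**, at every torsion order -/
theorem tameConstN {A : ValuationSubring Qbar} {hA : A.LiesOverPrime q} {hqM : ¬ q ∣ M}
    {F : ChartFrame hA hqM} (SF : StdFrame F) (n : ℕ) : TameConstN F n SF.NF.w :=
  fun x hx hfix => Fermat.Agent.S43.T1.Node.Main.nodeConst F SF.Y SF.NF SF.lc x hx hfix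

/-- **(MD): Mazur's dichotomy modulo `p ≥ 5` at `q ‖ M q`.** -/
theorem mazurDich (h5 : 5 ≤ p) : MazurDich M q p :=
  Fermat.Agent.S43.T1.MazurDich.mazurDich_of_bricks
    (fun SF => tameConstN SF p)
    (fun SF x hx => Fermat.Agent.S43.T1.Fin.HnnSeam.hasOffRepN_of_stdFrame hp.out.pos SF x hx)
    (fun SF => Fermat.Agent.S43.T1.Eis.StepN.eisEigenN SF (coprime_twelve h5))
    (fun SF => Fermat.Agent.S43.T1.Fin.HnnSeam.finOfNodeOrdN_of_stdFrame hp.out.pos SF)
    Fermat.Agent.S43.T1.Fin.KummerN.kummerN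

end Fermat.Agent.S43.T1.MazurDichMain
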