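/-
PROJECT R (S43), block T1, helper1: **CONSUMER 1 = `Assembly/Reduce.MazurFrey` (the chief's
literal) FROM THE NAMED HYPOTHESES OF `T1/Hyp`**: Mazur's principle at a non-stuck odd prime
`ℓ ≠ p` of the level, for the Frey curve.

`mazurFrey_of : (MD) → (FU) → (BAD) → MazurFrey`; `mazurFrey_of_two : (MD) → (FU) → MazurFrey`
((BAD) = helper26's `T1/Bad.not_isGoodPrimeFor`, no hypothesis).

Proof.  `N = M ℓ`, `ℓ ∤ M`.  ENT (`S44/Ent/Frey.exists_phi_tors`, main) embeds `V = E[p]` into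
`J₀(M ℓ)[p]`, `G_ℚ`-equivariantly, as a `T_r`-eigenspace with the eigenvalues `a_r(W)`.  `V` is
unramified at `ℓ` (`S05`, main) and non-Eisenstein (`S44/Top/NonEis`, main).  By (MD), for every
`v` either the eigensystem occurs at level `M` (EXIT: `S44/Exit/PushOld.modularRepOfLevel_of_tate_good`,
main; the prime `ℓ` itself is bad for `W` by (BAD)), or `φ v` is toric at every place `A ∣ ℓ`.
In the second case, with `U` the involution of (FU): `V` is irreducible, so `1 + U` or `1 - U` is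
injective on `φ V`; on its image every Frobenius lift at `ℓ` is `± ℓ`; hence every Frobenius lift
at `ℓ` acts on `E[p]` as the scalar `± ℓ` (`FrobScalar`), and `det = ℓ`
(`S44/Ent/DetE.det_rho_frob`, main) gives `ℓ² = ℓ` in `𝔽_p`, i.e. `p ∣ ℓ - 1`: `ℓ` is stuck.
-/
import Fermat.Agent.S43.Assembly.Reduce
import Fermat.Agent.S43.T1.Hyp
import Fermat.Agent.S43.T1.Bad
import Fermat.Agent.S44.Ent.Frey
import Fermat.Agent.S44.Ent.DetE
import Fermat.Agent.S44.Exit.PushOld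
import Fermat.Agent.S44.Top.NonEis
import Fermat.Agent.S05

set_option autoImplicit false
set_option linter.unusedSectionVars false
set_option linter.style.haveILetI false

noncomputable section

namespace Fermat.Agent.S43.T1.MazurFrey

open WeierstrassCurve WeierstrassCurve.Affine WeierstrassCurve.Affine.Point
open ModularCurve AlgebraicCurve FreyPackage
open Fermat.Agent.S33.KP.OneUnit Fermat.Agent.S43.T1.Hyp
open Fermat.Agent.S43.Assembly.Reduce
open Fermat.Agent.S30.Padic.TateModule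
open Fermat.Agent.S58.TateE (WQ Pts)
open Fermat.Agent.S41.NonEis.Inst

local notation "Qbar" => AlgebraicClosure ℚ
local notation "GQ" => (AlgebraicClosure ℚ ≃ₐ[ℚ] AlgebraicClosure ℚ)

/-! ### The `±` trick -/

section PM

variable {P : FreyPackage} {J : Type*} [AddCommGroup J] [DistribMulAction GQ J]

/-- the map `v ↦ φ v + ε U (φ v)` -/
def twist (φ : Submodule.torsionBy ℤ (P.freyCurve⁄Qbar).Point P.p →+ J) (U : J →+ J) (ε : ℤ) :
    Submodule.torsionBy ℤ (P.freyCurve⁄Qbar).Point P.p →+ J :=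
  φ + ε • (U.comp φ)

theorem twist_apply (φ : Submodule.torsionBy ℤ (P.freyCurve⁄Qbar).Point P.p →+ J) (U : J →+ J)
    (ε : ℤ) (v : Submodule.torsionBy ℤ (P.freyCurve⁄Qbar).Point P.p) :
    twist φ U ε v = φ v + ε • U (φ v) := rfl

/-- **The `±` trick.**  `V = E[p]` irreducible, `p` odd, `φ : V → J` injective and equivariant, `U`
an additive involution of `J` commuting with `G_ℚ`: `φ + U φ` or `φ - U φ` is injective. -/
theorem exists_sign_injective
    (hirr : GaloisRepIsIrreducible (K := Qbar) ℚ P.freyCurve P.p) (hp2 : P.p ≠ 2)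
    (φ : Submodule.torsionBy ℤ (P.freyCurve⁄Qbar).Point P.p →+ J)
    (hinj : Function.Injective φ)
    (hequiv : ∀ (σ : GQ) (v : Submodule.torsionBy ℤ (P.freyCurve⁄Qbar).Point P.p),
      φ (σ • v) = σ • φ v)
    (U : J →+ J) (hUG : ∀ (τ : GQ) (y : J), U (τ • y) = τ • U y) :
    ∃ ε : ℤ, (ε = 1 ∨ ε = -1) ∧ Function.Injective (twist φ U ε) := by
  -- the kernels are Galois-stable submodules
  have hker : ∀ ε : ℤ, (twist φ U ε).ker = ⊥ ∨ (twist φ U ε).ker = ⊤ := by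
    intro ε
    have hst : IsGaloisStable ℚ (AddSubgroup.toZModSubmodule P.p (twist φ U ε).ker) := by
      intro σ x hx
      rw [AddSubgroup.mem_toZModSubmodule, AddMonoidHom.mem_ker] at hx ⊢
      rw [twist_apply] at hx ⊢
      rw [hequiv, hUG, smul_comm ε σ, ← smul_add, hx, smul_zero]
    rcases hirr.2 _ hst with h | h
    · left
      have := congrArg Submodule.toAddSubgroup h
      rwa [AddSubgroup.toZModSubmodule_toAddSubgroup, Submodule.bot_toAddSubgroup] at this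
    · right
      have := congrArg Submodule.toAddSubgroup h
      rwa [AddSubgroup.toZModSubmodule_toAddSubgroup, Submodule.top_toAddSubgroup] at this
  rcases hker 1 with h1 | h1
  · exact ⟨1, Or.inl rfl, (AddMonoidHom.ker_eq_bot_iff _).mp h1⟩
  rcases hker (-1) with h2 | h2
  · exact ⟨-1, Or.inr rfl, (AddMonoidHom.ker_eq_bot_iff _).mp h2⟩
  -- both kernels are everything: `2 φ = 0`, impossible
  exfalso
  obtain ⟨x, y, hxy⟩ := hirr.1
  have hzero : ∀ v : Submodule.torsionBy ℤ (P.freyCurve⁄Qbar).Point P.p, v = 0 := by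
    intro v
    have e1 : twist φ U 1 v = 0 := by
      rw [← AddMonoidHom.mem_ker, h1]; exact AddSubgroup.mem_top v
    have e2 : twist φ U (-1) v = 0 := by
      rw [← AddMonoidHom.mem_ker, h2]; exact AddSubgroup.mem_top v
    rw [twist_apply] at e1 e2
    have e3 : (2 : ℤ) • φ v = 0 := by
      have := congrArg₂ (· + ·) e1 e2
      simp only [add_zero] at this
      rw [← this, one_smul, neg_smul, one_smul, two_smul]
      abel
    have e4 : φ ((2 : ℤ) • v) = 0 := by rw [map_zsmul, e3]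
    have e5 : (2 : ℤ) • v = 0 := hinj (by rw [e4, _root_.map_zero])
    have e6 : (P.p : ℤ) • v = 0 := Submodule.smul_torsionBy _ v
    -- `gcd (2, p) = 1`
    have hcop : IsCoprime (2 : ℤ) (P.p : ℤ) := by
      have : Nat.Coprime 2 P.p := by
        rw [Nat.coprime_comm]
        exact (Nat.Prime.coprime_iff_not_dvd P.pp).mpr fun h =>
          hp2 ((Nat.prime_dvd_prime_iff_eq P.pp Nat.prime_two).mp h)
      exact_mod_cast Nat.isCoprime_iff_coprime.mpr this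
    obtain ⟨a, b, hab⟩ := hcop
    calc v = (1 : ℤ) • v := (one_smul _ _).symm
      _ = (a * 2 + b * (P.p : ℤ)) • v := by rw [hab]
      _ = 0 := by rw [add_smul, mul_smul, mul_smul, e5, e6, smul_zero, smul_zero, add_zero]
  exact hxy ((hzero x).trans (hzero y).symm)

end PM

/-! ### The determinant of a scalar Frobenius -/

/-- If a Frobenius lift at `ℓ ≠ p` acts on `E[p]` (`E` the Frey curve, `E[p]` irreducible) as the
scalar `c`, then `c² = ℓ` in `𝔽_p`. -/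
theorem sq_eq_of_frob_scalar (P : FreyPackage) [Fact P.p.Prime]
    (hirr : GaloisRepIsIrreducible (K := Qbar) ℚ P.freyCurve P.p)
    {W : WeierstrassCurve ℤ} (hW : W.IsIntegralModelOf P.freyCurve) (hΔ : W.Δ ≠ 0)
    {ℓ : ℕ} (hℓ : ℓ.Prime) (hℓp : ℓ ≠ P.p) (A : ValuationSubring Qbar) (hA : A.LiesOverPrime ℓ)
    (σ : GQ) (hσ : A.IsFrobeniusAt σ ℓ) (c : ℤ)
    (hc : ∀ x : Submodule.torsionBy ℤ (P.freyCurve⁄Qbar).Point P.p, σ • x = c • x) :
    ((c : ℤ) : ZMod P.p) ^ 2 = (ℓ : ZMod P.p) := by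
  obtain ⟨C, hC⟩ := hW
  have hirr' : Point.GaloisRepIsIrreducible (K := AlgebraicClosure ℚ) ℚ
      (W.map (Int.castRingHom ℚ)) P.p := by
    rw [← hC]
    exact Fermat.Agent.S41.NonEis.Transfer.irreducible_smul P.freyCurve C P.p hirr
  obtain ⟨e, he⟩ := Fermat.Agent.S44.Ent.Frey.exists_addEquiv_of_smul_eq C hC P.p
  have hscal : rho W P.p σ = ((c : ℤ) : ZMod P.p) • (1 : Module.End (ZMod P.p) (Vp W P.p)) := by
    refine LinearMap.ext fun v => ?_
    obtain ⟨x, rfl⟩ := e.surjective v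
    rw [rho_apply, ← he, hc, map_zsmul, LinearMap.smul_apply, Module.End.one_apply,
      Int.cast_smul_eq_zsmul]
  have hdet := Fermat.Agent.S44.Ent.DetE.det_rho_frob hΔ hirr' hℓ hℓp A hA σ hσ
  rw [hscal, LinearMap.det_smul, finrank_Vp P.p hΔ, map_one, mul_one] at hdet
  exact hdet

/-! ### Consumer 1 -/

set_option maxHeartbeats 800000 in
/-- **CONSUMER 1: `MazurFrey` from (MD), (FU), (BAD).** -/
theorem mazurFrey_of
    (hMD : ∀ (M q p : ℕ) [NeZero M] [Fact q.Prime] [NeZero q] [NeZero (M * q)] [Fact p.Prime],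
      ¬ q ∣ M → q ≠ p → 5 ≤ p → MazurDich M q p)
    (hFU : ∀ (M q p : ℕ) [NeZero M] [Fact q.Prime] [NeZero q] [NeZero (M * q)],
      p.Prime → ¬ q ∣ M → q ≠ p → FrobU M q p)
    (hbad : BadAt) : MazurFrey := by
  intro P N ℓ hcond hℓ hℓ2 hℓp hℓN hns hirr hmod
  haveI : Fact P.p.Prime := ⟨P.pp⟩
  haveI : Fact ℓ.Prime := ⟨hℓ⟩
  haveI : NeZero ℓ := ⟨hℓ.ne_zero⟩
  have hp2 : P.p ≠ 2 := by have := P.hp5; omega
  obtain ⟨M, rfl⟩ : ∃ M, N = M * ℓ := ⟨N / ℓ, (Nat.div_mul_cancel hℓN).symm⟩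
  have hM0 : M ≠ 0 := fun h => by
    have := hcond.pos
    rw [h, zero_mul] at this
    exact lt_irrefl _ this
  haveI : NeZero M := ⟨hM0⟩
  haveI : NeZero (M * ℓ) := ⟨Nat.mul_ne_zero hM0 hℓ.ne_zero⟩
  have hℓM : ¬ ℓ ∣ M := by
    rintro ⟨c, rfl⟩
    apply hcond.sq_not_dvd hℓ
    exact ⟨c, by ring⟩
  rw [Nat.mul_div_cancel M hℓ.pos]
  by_contra hnot
  apply hns
  -- ENT
  obtain ⟨W, hW, hΔ, φ, hinj, hequiv, heig, -⟩ :=
    Fermat.Agent.S44.Ent.Frey.exists_phi_tors P hirr hmod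
  have hWℓ : ¬ W.IsGoodPrimeFor ℓ := hbad P W hW ℓ hℓ hℓ2 (hcond.support ℓ hℓ hℓN)
  have hunr := Fermat.Agent.S05.result P hℓ hℓ2 hℓp
  -- the non-Eisenstein prime
  obtain ⟨r, hrp, -, hrMℓ, hrgood, hrne⟩ :=
    Fermat.Agent.S44.Top.NonEis.exists_prime_ap_ne_frey P hirr hW (M * ℓ)
      (Nat.pos_of_ne_zero (NeZero.ne (M * ℓ)))
  have hrMℓ' : ¬ (r : ℕ) ∣ M * ℓ := fun h => hrMℓ (h.mul_right _)
  set good : Set ℕ := {s | W.IsGoodPrimeFor s ∧ ¬ s ∣ M * ℓ ∧ s ≠ P.p} with hgood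
  have hgood1 : ∀ s ∈ good, ¬ s ∣ M ∧ s ≠ ℓ ∧ s ≠ P.p := fun s hs =>
    ⟨fun h => hs.2.1 (h.mul_right _), fun h => hs.2.1 (h ▸ Dvd.intro_left M rfl), hs.2.2⟩
  have hnonEis : ∃ s ∈ good, s.Prime ∧
      ¬ (P.p : ℤ) ∣ (fun s => W.apOfModel s) s - ((s : ℤ) + 1) := by
    refine ⟨(r : ℕ), ⟨hrgood, hrMℓ', hrp⟩, r.2, fun hdvd => hrne ?_⟩
    have h6 := (ZMod.intCast_zmod_eq_zero_iff_dvd _ _).mpr hdvd
    push_cast at h6
    linear_combination h6
  -- every `φ v` is toric, at every place over `ℓ`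
  have htoric : ∀ (A : ValuationSubring Qbar) (hA : A.LiesOverPrime ℓ)
      (v : Submodule.torsionBy ℤ (P.freyCurve⁄Qbar).Point P.p), φ v ∈ oneUnit hA hℓM P.p := by
    intro A hA v
    have hpv : P.p • φ v = 0 := by
      rw [← map_nsmul, ← natCast_zsmul, Submodule.smul_torsionBy, _root_.map_zero]
    have hfix : ∀ τ ∈ A.inertiaSubgroupIn ℚ, τ • φ v = φ v := fun τ hτ =>
      (hequiv τ v).symm.trans (congrArg φ (hunr A hA τ hτ v))
    rcases hMD M ℓ P.p hℓM hℓp P.hp5 A hA hℓM good hgood1 (fun s => W.apOfModel s) hnonEis (φ v) hpv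
      hfix (fun s hs hsg => heig s hs hsg.1 hsg.2.1 hsg.2.2 v) with ⟨w, hw, hweig⟩ | h
    · exfalso
      refine hnot (Fermat.Agent.S44.Exit.PushOld.modularRepOfLevel_of_tate_good P W hW w hw
        fun l hl hg hlM hlp => hweig l hl ⟨hg, fun hd => ?_, hlp⟩)
      rcases (Nat.Prime.dvd_mul hl).mp hd with h | h
      · exact hlM h
      · exact hWℓ (((Nat.prime_dvd_prime_iff_eq hl hℓ).mp h) ▸ hg)
    · exact h
  -- (FU) and the sign
  obtain ⟨U, hUU, hUG, hUF⟩ := hFU M ℓ P.p P.pp hℓM hℓp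
  obtain ⟨ε, hε, hεinj⟩ := exists_sign_injective hirr hp2 φ hinj hequiv U hUG
  have hεε : ε * ε = 1 := by rcases hε with rfl | rfl <;> norm_num
  -- every Frobenius lift at `ℓ` is the scalar `ε ℓ`
  have hscal : ∀ (A : ValuationSubring Qbar), A.LiesOverPrime ℓ → ∀ σ : GQ,
      A.IsFrobeniusAt σ ℓ → ∀ x : Submodule.torsionBy ℤ (P.freyCurve⁄Qbar).Point P.p,
        σ • x = (ε * (ℓ : ℤ)) • x := by
    intro A hA σ hσ x
    apply hεinj
    have h1 : σ • φ x = (ℓ : ℤ) • U (φ x) := by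
      rw [natCast_zsmul]
      exact hUF A hA hℓM σ hσ 1 (φ x) (by rw [pow_one]; exact htoric A hA x)
    have h2 : σ • U (φ x) = (ℓ : ℤ) • φ x := by
      rw [← hUG, h1, map_zsmul, hUU]
    rw [twist_apply, twist_apply, hequiv, hUG, h1, h2, map_zsmul, map_zsmul, smul_smul, smul_smul,
      ← mul_assoc, hεε, one_mul, add_comm]
  refine ⟨?_, fun A hA σ hσ => ⟨ε * (ℓ : ℤ), hscal A hA σ hσ⟩⟩
  -- `p ∣ ℓ - 1`
  obtain ⟨A, σ, hA, hσ⟩ :=
    Fermat.Agent.Lib.FrobeniusExists.exists_valuationSubring_isFrobeniusAt ℓ hℓ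
  have hsq := sq_eq_of_frob_scalar P hirr hW hΔ hℓ hℓp A hA σ hσ (ε * (ℓ : ℤ)) (hscal A hA σ hσ)
  have hℓ0 : ((ℓ : ℕ) : ZMod P.p) ≠ 0 := by
    rw [Ne, ZMod.natCast_eq_zero_iff]
    exact fun h => hℓp ((Nat.prime_dvd_prime_iff_eq P.pp hℓ).mp h).symm
  have h1 : ((ℓ : ℕ) : ZMod P.p) = 1 := by
    have hεε' : ((ε : ℤ) : ZMod P.p) * ((ε : ℤ) : ZMod P.p) = 1 := by
      exact_mod_cast congrArg (Int.cast : ℤ → ZMod P.p) hεε
    have h3 : ((ℓ : ℕ) : ZMod P.p) * ((ℓ : ℕ) : ZMod P.p) = ((ℓ : ℕ) : ZMod P.p) := by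
      push_cast at hsq
      linear_combination hsq - ((ℓ : ℕ) : ZMod P.p) ^ 2 * hεε'
    exact mul_left_cancel₀ hℓ0 (by rw [h3, mul_one])
  have h4 : ((ℓ - 1 : ℕ) : ZMod P.p) = 0 := by
    rw [Nat.cast_sub hℓ.one_lt.le, h1, Nat.cast_one, sub_self]
  exact (ZMod.natCast_eq_zero_iff _ _).mp h4

/-- (BAD) is helper26's `T1/Bad.not_isGoodPrimeFor`. -/
theorem badAt : BadAt := fun P W hW ℓ hℓ h2 h =>
  Fermat.Agent.S43.T1.Bad.not_isGoodPrimeFor P W hW ℓ hℓ h2 h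

/-- **CONSUMER 1: `MazurFrey` from (MD) and (FU).** -/
theorem mazurFrey_of_two
    (hMD : ∀ (M q p : ℕ) [NeZero M] [Fact q.Prime] [NeZero q] [NeZero (M * q)] [Fact p.Prime],
      ¬ q ∣ M → q ≠ p → 5 ≤ p → MazurDich M q p)
    (hFU : ∀ (M q p : ℕ) [NeZero M] [Fact q.Prime] [NeZero q] [NeZero (M * q)],
      p.Prime → ¬ q ∣ M → q ≠ p → FrobU M q p) : MazurFrey :=
  mazurFrey_of hMD hFU badAt

end Fermat.Agent.S43.T1.MazurFrey
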