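/-
PROJECT R (S43), block T1 (helper1): **`Assembly/Reduce.MazurFrey` FROM (FU) ALONE**: (MD) is a
theorem (`T1/MazurDichMain.mazurDich`, `p ≥ 5`, supplied by the Frey package), (BAD) is a theorem
(`T1/Bad`).  The only input left for Mazur's principle at the non-stuck primes is
`Hyp.FrobU M q p` (`T1/Frob/**`).
-/
import Fermat.Agent.S43.T1.MazurFrey
import Fermat.Agent.S43.T1.MazurDichMain

set_option autoImplicit false
set_option linter.unusedSectionVars false
set_option linter.unusedVariables false

noncomputable section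

namespace Fermat.Agent.S43.T1.MazurFreyMain

open Fermat.Agent.S43.T1.Hyp Fermat.Agent.S43.Assembly.Reduce

/-- **`MazurFrey` from (FU).** -/
theorem mazurFrey_of_frobU
    (hFU : ∀ (M q p : ℕ) [NeZero M] [Fact q.Prime] [NeZero q] [NeZero (M * q)],
      p.Prime → ¬ q ∣ M → q ≠ p → FrobU M q p) : MazurFrey :=
  Fermat.Agent.S43.T1.MazurFrey.mazurFrey_of_two
    (fun M q p _ _ _ _ _ _ _ h5 => Fermat.Agent.S43.T1.MazurDichMain.mazurDich h5) hFU

end Fermat.Agent.S43.T1.MazurFreyMain
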