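/-
PROJECT R (S43), block T1, THE EXPORT OF THE BLOCK (helper18, leader T1):

  **`Fermat.Agent.S43.Assembly.Reduce.MazurFrey` IS A THEOREM** (no hypothesis left).

Mazur's principle at the non-stuck primes of the Frey level: for `ℓ ∥ N`, `ℓ ≠ 2, p`, `ρ̄` the Frey
representation modulo `p` (irreducible), if `ρ̄` is modular of level `N` and `ℓ` is not stuck
(`p ∤ ℓ - 1` or the Frobenius at `ℓ` is not scalar), then `ρ̄` is modular of level `N / ℓ`.

Composition (see `T1/Seam.lean` for the table):
* (MD) `T1/MazurDichMain.mazurDich` (helper1; bricks: (N)_n helper19 `T1/Node/**`, finite part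
  helper26 `T1/Core/DimCountN`, `T1/Fin/**`, Eisenstein step helper16 `T1/Eis/StepN`);
* (FU) `T1/Frob/FrobU.frobU` (helper18; `Frob_q = - q w_q` on the toric part);
* (BAD) `T1/Bad` (helper26);
* consumer `T1/MazurFrey.mazurFrey_of_two`, `T1/MazurFreyMain.mazurFrey_of_frobU` (helper1).
-/
import Fermat.Agent.S43.T1.MazurFreyMain
import Fermat.Agent.S43.T1.Frob.FrobU

set_option autoImplicit false

namespace Fermat.Agent.S43.T1.Main

/-- **Mazur's principle at the non-stuck primes of the Frey level** (the chief's literal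
`Assembly/Reduce.MazurFrey`), no hypothesis left. -/
theorem mazurFrey : Fermat.Agent.S43.Assembly.Reduce.MazurFrey :=
  Fermat.Agent.S43.T1.MazurFreyMain.mazurFrey_of_frobU
    (fun M q p _ _ _ _ hp hqM hqp => Fermat.Agent.S43.T1.Frob.FrobU.frobU M q p hp hqM hqp)

end Fermat.Agent.S43.T1.Main
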